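/-
The map on `x`-coordinates `(P, Q) ↦ (P + Q, P - Q)` of a Weierstrass curve is given by the
quadratic forms `WeierstrassCurve.addSubMap` of Mathlib.
-/
import Mathlib.AlgebraicGeometry.EllipticCurve.Affine.AddSubMap

set_option autoImplicit false

open WeierstrassCurve WeierstrassCurve.Affine

namespace Fermat.Agent.Weil

/-- The three quadratic forms, in explicit shape, with coefficients in any ring. -/
def biquad {S : Type*} [CommRing S] (W : WeierstrassCurve S) (u : Fin 3 → S) : Fin 3 → S :=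
  ![u 0 ^ 2 - W.b₄ * u 0 * u 2 - W.b₆ * u 1 * u 2 - W.b₈ * u 2 ^ 2,
    2 * u 1 * u 0 + W.b₂ * u 0 * u 2 + W.b₄ * u 1 * u 2 + W.b₆ * u 2 ^ 2,
    u 1 ^ 2 - 4 * u 0 * u 2]

theorem biquad_eq_eval {S : Type*} [CommRing S] (W : WeierstrassCurve S) (u : Fin 3 → S) :
    biquad W u = fun i => (addSubMap W i).eval u := by
  ext i
  fin_cases i <;> simp [biquad, addSubMap]

theorem biquad_ne_zero {S : Type*} [CommRing S] [IsReduced S] (W : WeierstrassCurve S)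
    [W.IsElliptic] {u : Fin 3 → S} (hu : u ≠ 0) : biquad W u ≠ 0 := by
  rw [biquad_eq_eval]
  exact addSubMap_ne_zero W hu

theorem biquad_smul {S : Type*} [CommRing S] (W : WeierstrassCurve S) (c : S) (u : Fin 3 → S) :
    biquad W (c • u) = c ^ 2 • biquad W u := by
  ext i
  fin_cases i <;> simp [biquad] <;> ring

theorem map_biquad {S T : Type*} [CommRing S] [CommRing T] (W : WeierstrassCurve S) (f : S →+* T)
    (u : Fin 3 → S) (i : Fin 3) : f (biquad W u i) = biquad (W.map f) (f ∘ u) i := by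
  fin_cases i <;> simp [biquad, map_ofNat]

variable {F : Type*} [Field F] {W : Affine F}

theorem biquad_sym2x_of_zero (Q : W.Point) :
    biquad W ((0 : W.Point).sym2x Q) = Q.sym2x Q := by
  rcases Q with _ | ⟨x, y, h⟩
  · ext i
    fin_cases i <;> simp [← Point.zero_def, biquad]
  · ext i
    fin_cases i <;> simp [biquad] <;> ring

variable [DecidableEq F]

theorem biquad_sym2x_of_X_ne {x₁ y₁ x₂ y₂ : F} (h₁ : W.Nonsingular x₁ y₁)
    (h₂ : W.Nonsingular x₂ y₂) (hx : x₁ ≠ x₂) :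
    biquad W ((Point.some x₁ y₁ h₁).sym2x (Point.some x₂ y₂ h₂)) =
      (x₁ - x₂) ^ 2 • (Point.some x₁ y₁ h₁ + Point.some x₂ y₂ h₂).sym2x
        (Point.some x₁ y₁ h₁ - Point.some x₂ y₂ h₂) := by
  rw [sub_eq_add_neg (Point.some x₁ y₁ h₁), Point.neg_some, Point.add_of_X_ne hx,
    Point.add_of_X_ne hx, Point.sym2x_some_some, Point.sym2x_some_some]
  have e₁ := (W.equation_iff x₁ y₁).1 h₁.left
  have e₂ := (W.equation_iff x₂ y₂).1 h₂.left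
  set ℓ := W.slope x₁ x₂ y₁ y₂ with hℓ
  set ℓ' := W.slope x₁ x₂ y₁ (W.negY x₂ y₂) with hℓ'
  have hd : x₁ - x₂ ≠ 0 := sub_ne_zero.2 hx
  have k : ℓ * (x₁ - x₂) = y₁ - y₂ := by
    rw [hℓ, slope_of_X_ne hx, div_mul_cancel₀ _ hd]
  have k' : ℓ' * (x₁ - x₂) = y₁ + y₂ + W.a₁ * x₂ + W.a₃ := by
    rw [hℓ', slope_of_X_ne hx, div_mul_cancel₀ _ hd, negY]
    ring
  -- the numerators of the two x-coordinates
  have kx : (x₁ - x₂) ^ 2 * W.addX x₁ x₂ ℓ = (y₁ - y₂) ^ 2 + W.a₁ * (y₁ - y₂) * (x₁ - x₂)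
      - (W.a₂ + x₁ + x₂) * (x₁ - x₂) ^ 2 := by
    rw [addX]
    linear_combination ((x₁ - x₂) * ℓ + (y₁ - y₂) + W.a₁ * (x₁ - x₂)) * k
  have kx' : (x₁ - x₂) ^ 2 * W.addX x₁ x₂ ℓ' =
      (y₁ + y₂ + W.a₁ * x₂ + W.a₃) ^ 2
      + W.a₁ * (y₁ + y₂ + W.a₁ * x₂ + W.a₃) * (x₁ - x₂)
      - (W.a₂ + x₁ + x₂) * (x₁ - x₂) ^ 2 := by
    rw [addX]
    linear_combination ((x₁ - x₂) * ℓ' + (y₁ + y₂ + W.a₁ * x₂ + W.a₃) + W.a₁ * (x₁ - x₂)) * k'
  generalize W.addX x₁ x₂ ℓ = u at kx ⊢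
  generalize W.addX x₁ x₂ ℓ' = v at kx' ⊢
  ext i
  fin_cases i
  · simp [biquad, WeierstrassCurve.b₂, WeierstrassCurve.b₄, WeierstrassCurve.b₆,
      WeierstrassCurve.b₈]
    apply mul_left_cancel₀ (pow_ne_zero 2 hd)
    set f₁ := x₁ ^ 3 + W.a₂ * x₁ ^ 2 + W.a₄ * x₁ + W.a₆ with hf₁
    set f₂ := x₂ ^ 3 + W.a₂ * x₂ ^ 2 + W.a₄ * x₂ + W.a₆ with hf₂
    set S := f₁ + f₂ - (W.a₂ + x₁ + x₂) * (x₁ - x₂) ^ 2 with hS
    set L₁ := W.a₁ * x₁ + W.a₃ with hL₁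
    set L₂ := W.a₁ * x₂ + W.a₃ with hL₂
    set r₁ := y₁ ^ 2 + W.a₁ * x₁ * y₁ + W.a₃ * y₁ - f₁ with hr₁
    set r₂ := y₂ ^ 2 + W.a₁ * x₂ * y₂ + W.a₃ * y₂ - f₂ with hr₂
    have hmain : ((x₁ - x₂) ^ 2 * u) * ((x₁ - x₂) ^ 2 * v) =
        S ^ 2 + S * L₁ * L₂ - L₂ ^ 2 * f₁ - L₁ ^ 2 * f₂ - 4 * f₁ * f₂ := by
      rw [kx, kx']
      have z₁ : r₁ = 0 := by rw [hr₁, e₁]; ring
      have z₂ : r₂ = 0 := by rw [hr₂, e₂]; ring
      linear_combination (r₁ + r₂ + 2 * S + L₁ * L₂ - L₂ ^ 2 - 4 * f₂ - 4 * r₂) * z₁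
        + (r₁ + r₂ + 2 * S + L₁ * L₂ - L₁ ^ 2 - 4 * f₁) * z₂
    linear_combination -hmain
  · simp [biquad, WeierstrassCurve.b₂, WeierstrassCurve.b₄, WeierstrassCurve.b₆,
      WeierstrassCurve.b₈]
    linear_combination -kx - kx' - 2 * e₁ - 2 * e₂
  · simp [biquad]
    ring

/-- The two triples are proportional. -/
theorem biquad_sym2x_cross (P Q : W.Point) (i j : Fin 3) :
    biquad W (P.sym2x Q) i * (P + Q).sym2x (P - Q) j
      = biquad W (P.sym2x Q) j * (P + Q).sym2x (P - Q) i := by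
  rcases P with _ | ⟨x₁, y₁, h₁⟩
  · rw [← Point.zero_def, biquad_sym2x_of_zero, zero_add, zero_sub, Point.sym2x_neg_right,
      mul_comm]
  rcases Q with _ | ⟨x₂, y₂, h₂⟩
  · rw [← Point.zero_def, Point.sym2x_comm _ 0, biquad_sym2x_of_zero, add_zero, sub_zero,
      mul_comm]
  by_cases hx : x₁ = x₂
  · subst hx
    -- one of the two points is zero, the other one a double
    set D : W.Point := Point.some x₁ y₁ h₁ + Point.some x₁ y₁ h₁ with hD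
    have hval : (Point.some x₁ y₁ h₁).sym2x (Point.some x₁ y₂ h₂) = ![x₁ * x₁, x₁ + x₁, 1] :=
      Point.sym2x_some_some _ _
    have hsum : (Point.some x₁ y₁ h₁ + Point.some x₁ y₂ h₂).sym2x
        (Point.some x₁ y₁ h₁ - Point.some x₁ y₂ h₂) = D.sym2x 0 := by
      rcases (Point.X_eq_iff (h₁ := h₁) (h₂ := h₂)).1 rfl with h | h
      · rw [← h, sub_self, hD]
      · have h' : Point.some x₁ y₂ h₂ = -Point.some x₁ y₁ h₁ := by rw [h, neg_neg]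
        rw [h', add_neg_cancel, sub_neg_eq_add, Point.sym2x_comm, hD]
    rw [hval, hsum]
    have e := (W.equation_iff x₁ y₁).1 h₁.left
    by_cases hy : y₁ = W.negY x₁ y₁
    · rw [hD, Point.add_self_of_Y_eq hy, Point.sym2x_zero_zero]
      have hψ : 2 * y₁ + W.a₁ * x₁ + W.a₃ = 0 := by
        rw [negY] at hy
        linear_combination hy
      have h1 : biquad W ![x₁ * x₁, x₁ + x₁, 1] 1 = 0 := by
        simp [biquad, WeierstrassCurve.b₂, WeierstrassCurve.b₄, WeierstrassCurve.b₆]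
        linear_combination -4 * e + (2 * y₁ + W.a₁ * x₁ + W.a₃) * hψ
      have h2 : biquad W ![x₁ * x₁, x₁ + x₁, 1] 2 = 0 := by
        simp [biquad]
        ring
      fin_cases i <;> fin_cases j <;> simp [h1, h2]
    · rw [hD, Point.add_self_of_Y_ne hy, Point.sym2x_some_zero]
      set ℓ := W.slope x₁ x₁ y₁ y₁ with hℓ
      have hd : y₁ - W.negY x₁ y₁ ≠ 0 := sub_ne_zero.2 hy
      have k : ℓ * (2 * y₁ + W.a₁ * x₁ + W.a₃) =
          3 * x₁ ^ 2 + 2 * W.a₂ * x₁ + W.a₄ - W.a₁ * y₁ := by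
        have : y₁ - W.negY x₁ y₁ = 2 * y₁ + W.a₁ * x₁ + W.a₃ := by rw [negY]; ring
        rw [hℓ, slope_of_Y_ne rfl hy, ← this, div_mul_cancel₀ _ hd]
      have h0 : biquad W ![x₁ * x₁, x₁ + x₁, 1] 0 =
          W.addX x₁ x₁ ℓ * biquad W ![x₁ * x₁, x₁ + x₁, 1] 1 := by
        simp [biquad, addX, WeierstrassCurve.b₂, WeierstrassCurve.b₄, WeierstrassCurve.b₆,
          WeierstrassCurve.b₈]
        linear_combination
          -(ℓ * (2 * y₁ + W.a₁ * x₁ + W.a₃) + (3 * x₁ ^ 2 + 2 * W.a₂ * x₁ + W.a₄ - W.a₁ * y₁)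
            + W.a₁ * (2 * y₁ + W.a₁ * x₁ + W.a₃)) * k
          + (4 * (ℓ ^ 2 + W.a₁ * ℓ) + 0) * e - (-W.a₁ ^ 2 - 4 * W.a₂ - 8 * x₁ + 4 * (W.a₂ + x₁ + x₁)) * e
      have h2 : biquad W ![x₁ * x₁, x₁ + x₁, 1] 2 = 0 := by
        simp [biquad]
        ring
      fin_cases i <;> fin_cases j <;> simp [h0, h2] <;> ring
  · rw [biquad_sym2x_of_X_ne h₁ h₂ hx]
    simp only [Pi.smul_apply, smul_eq_mul]
    ring

end Fermat.Agent.Weil
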