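/-
The function field of an elliptic curve, its generic point, and substitution of points.
-/
import Mathlib.AlgebraicGeometry.EllipticCurve.Affine.Point
import Mathlib.FieldTheory.IsAlgClosed.Basic
import Mathlib.RingTheory.Algebraic.Basic

set_option autoImplicit false

open Polynomial WeierstrassCurve.Affine
open scoped WeierstrassCurve.Affine

namespace Fermat.Agent.Weil

theorem isElliptic_baseChange {R : Type*} [CommRing R] (W : WeierstrassCurve R) [W.IsElliptic]
    (A : Type*) [CommRing A] [Algebra R A] : (W⁄A).IsElliptic := by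
  unfold WeierstrassCurve.Affine.baseChange WeierstrassCurve.baseChange
  infer_instance

scoped instance instIsEllipticBaseChange {R : Type*} [CommRing R] (W : WeierstrassCurve R)
    [W.IsElliptic] (A : Type*) [CommRing A] [Algebra R A] : (W⁄A).IsElliptic :=
  isElliptic_baseChange W A

variable {R : Type*} [Field R] (W : WeierstrassCurve R)
variable (K : Type*) [Field K] [Algebra R K]

/-- The function field of `W` over `K`. -/
abbrev FF := (W⁄K).FunctionField

/-- The generic `x`. -/
noncomputable def gx : FF W K :=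
  algebraMap (W⁄K).CoordinateRing (FF W K) (CoordinateRing.mk (W⁄K) (C X))

/-- The generic `y`. -/
noncomputable def gy : FF W K :=
  algebraMap (W⁄K).CoordinateRing (FF W K) (CoordinateRing.mk (W⁄K) X)

/-- Evaluation at the generic `x`. -/
noncomputable def evX : K[X] →ₐ[K] FF W K := aeval (gx W K)

variable {K}

theorem evX_eq (p : K[X]) :
    evX W K p = algebraMap (W⁄K).CoordinateRing (FF W K) (CoordinateRing.mk (W⁄K) (C p)) := by
  induction p using Polynomial.induction_on' with
  | add p q hp hq => simp only [map_add, hp, hq]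
  | monomial n a =>
    rw [evX, aeval_monomial, gx, ← map_pow, ← map_pow, ← map_pow, ← C_mul_X_pow_eq_monomial,
      map_mul C, map_mul (CoordinateRing.mk (W⁄K)), map_mul (algebraMap _ (FF W K)),
      IsScalarTower.algebraMap_apply K (W⁄K).CoordinateRing (FF W K)]
    rfl

theorem evX_X : evX W K X = gx W K := aeval_X _

theorem basis_ev (p q : K[X]) :
    algebraMap (W⁄K).CoordinateRing (FF W K) (p • (1 : (W⁄K).CoordinateRing) +
      q • CoordinateRing.mk (W⁄K) X) = evX W K p + evX W K q * gy W K := by
  rw [CoordinateRing.smul, CoordinateRing.smul, mul_one, map_add, map_mul, evX_eq, evX_eq, gy]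

/-- `1`, `gy` are independent over the polynomials in `gx`. -/
theorem evX_add_eq_zero {p q : K[X]} (h : evX W K p + evX W K q * gy W K = 0) : p = 0 ∧ q = 0 := by
  rw [← basis_ev] at h
  exact CoordinateRing.smul_basis_eq_zero
    ((IsFractionRing.injective (W⁄K).CoordinateRing (FF W K)) (h.trans (map_zero _).symm))

theorem evX_injective : Function.Injective (evX W K) := by
  refine (injective_iff_map_eq_zero _).2 fun p hp => ?_
  exact (evX_add_eq_zero W (p := p) (q := 0) (by simp [hp])).1

theorem gx_transcendental : Transcendental K (gx W K) := by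
  rw [transcendental_iff_injective]
  exact evX_injective W

/-- The linear form `a₁ x + a₃`. -/
noncomputable def linL : K[X] := C (W⁄K).a₁ * X + C (W⁄K).a₃

/-- The cubic. -/
noncomputable def cubF : K[X] :=
  X ^ 3 + C (W⁄K).a₂ * X ^ 2 + C (W⁄K).a₄ * X + C (W⁄K).a₆

theorem gy_sq : gy W K ^ 2 + evX W K (linL W) * gy W K = evX W K (cubF W) := by
  have h : (CoordinateRing.mk (W⁄K)) (W⁄K).polynomial = 0 := AdjoinRoot.mk_self
  have h' := congrArg (algebraMap (W⁄K).CoordinateRing (FF W K)) h
  simp only [WeierstrassCurve.Affine.polynomial, map_zero] at h'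
  simp only [map_sub, map_add, map_mul, map_pow] at h'
  rw [evX_eq, evX_eq, gy, linL, cubF]
  simp only [map_add, map_mul, map_pow]
  linear_combination h'

section Target

variable {L : Type*} [Field L] [Algebra R L] [Algebra K L] [IsScalarTower R K L]

theorem coeff_tower :
    (W⁄L).a₁ = algebraMap K L (W⁄K).a₁ ∧ (W⁄L).a₂ = algebraMap K L (W⁄K).a₂ ∧
    (W⁄L).a₃ = algebraMap K L (W⁄K).a₃ ∧ (W⁄L).a₄ = algebraMap K L (W⁄K).a₄ ∧
    (W⁄L).a₆ = algebraMap K L (W⁄K).a₆ := by
  refine ⟨?_, ?_, ?_, ?_, ?_⟩ <;> exact IsScalarTower.algebraMap_apply R K L _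

theorem aeval_linL (u : L) : aeval u (linL (K := K) W) = (W⁄L).a₁ * u + (W⁄L).a₃ := by
  obtain ⟨h1, -, h3, -, -⟩ := coeff_tower W (K := K) (L := L)
  rw [linL, h1, h3]
  simp

theorem aeval_cubF (u : L) : aeval u (cubF (K := K) W)
    = u ^ 3 + (W⁄L).a₂ * u ^ 2 + (W⁄L).a₄ * u + (W⁄L).a₆ := by
  obtain ⟨-, h2, -, h4, h6⟩ := coeff_tower W (K := K) (L := L)
  rw [cubF, h2, h4, h6]
  simp

theorem equation_iff_aeval (u v : L) :
    (W⁄L).Equation u v ↔ v ^ 2 + aeval u (linL (K := K) W) * v = aeval u (cubF (K := K) W) := by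
  rw [WeierstrassCurve.Affine.equation_iff, aeval_linL, aeval_cubF]
  constructor <;> intro h <;> linear_combination h

variable (K) in
/-- Evaluation at a point with values in `L`. -/
noncomputable def evalPoint {u v : L} (h : (W⁄L).Equation u v) :
    (W⁄K).CoordinateRing →+* L :=
  AdjoinRoot.lift (aeval (R := K) u).toRingHom v <| by
    have h' := (equation_iff_aeval (K := K) W u v).1 h
    simp only [polynomial, eval₂_sub, eval₂_add, eval₂_mul, eval₂_C, eval₂_X, eval₂_X_pow,
      AlgHom.toRingHom_eq_coe, RingHom.coe_coe]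
    rw [← linL, ← cubF]
    linear_combination h'

theorem evalPoint_mk_C {u v : L} (h : (W⁄L).Equation u v) (p : K[X]) :
    evalPoint W K h (CoordinateRing.mk (W⁄K) (C p)) = aeval u p := by
  rw [evalPoint, AdjoinRoot.lift_mk, eval₂_C]
  rfl

theorem evalPoint_mk_Y {u v : L} (h : (W⁄L).Equation u v) :
    evalPoint W K h (CoordinateRing.mk (W⁄K) X) = v := by
  rw [evalPoint, AdjoinRoot.lift_mk, eval₂_X]

theorem evalPoint_basis {u v : L} (h : (W⁄L).Equation u v) (p q : K[X]) :
    evalPoint W K h (p • (1 : (W⁄K).CoordinateRing) + q • CoordinateRing.mk (W⁄K) X)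
      = aeval u p + aeval u q * v := by
  rw [CoordinateRing.smul, CoordinateRing.smul, mul_one, map_add, map_mul, evalPoint_mk_C,
    evalPoint_mk_C, evalPoint_mk_Y]

end Target

theorem equation_gen : (W⁄(FF W K)).Equation (gx W K) (gy W K) :=
  (equation_iff_aeval (K := K) W _ _).2 (gy_sq W)

/-- The norm to the polynomials of `p + q y`. -/
noncomputable def normPQ (p q : K[X]) : K[X] := p ^ 2 - p * q * linL W - q ^ 2 * cubF W

theorem mul_conj_ev (p q : K[X]) :
    (evX W K p + evX W K q * gy W K) * (evX W K (p - q * linL W) + evX W K (-q) * gy W K)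
      = evX W K (normPQ W p q) := by
  simp only [normPQ, map_sub, map_mul, map_neg, map_pow]
  linear_combination -(evX W K q) ^ 2 * gy_sq W (K := K)

theorem normPQ_ne_zero {p q : K[X]} (h : p ≠ 0 ∨ q ≠ 0) : normPQ W p q ≠ 0 := by
  intro hn
  have h0 := mul_conj_ev W p q
  rw [hn, map_zero, mul_eq_zero] at h0
  rcases h0 with h0 | h0
  · obtain ⟨rfl, rfl⟩ := evX_add_eq_zero W h0
    simp at h
  · obtain ⟨h1, h2⟩ := evX_add_eq_zero W h0
    rw [neg_eq_zero] at h2
    subst h2
    rw [zero_mul, sub_zero] at h1
    subst h1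
    simp at h

/-- Every function is `(p + q y) / r`. -/
theorem exists_repr (z : FF W K) :
    ∃ p q r : K[X], r ≠ 0 ∧ z * evX W K r = evX W K p + evX W K q * gy W K := by
  obtain ⟨a, b, hb, rfl⟩ := IsFractionRing.div_surjective (A := (W⁄K).CoordinateRing) z
  obtain ⟨p, q, rfl⟩ := CoordinateRing.exists_smul_basis_eq b
  obtain ⟨p', q', h'⟩ := CoordinateRing.exists_smul_basis_eq
    (a * ((p - q * linL W) • (1 : (W⁄K).CoordinateRing) + (-q) • CoordinateRing.mk (W⁄K) X))
  have hne : p ≠ 0 ∨ q ≠ 0 := by
    by_contra h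
    push Not at h
    exact nonZeroDivisors.ne_zero hb (by simp [h.1, h.2])
  refine ⟨p', q', normPQ W p q, normPQ_ne_zero W hne, ?_⟩
  rw [← basis_ev W p' q', h', map_mul, basis_ev, ← mul_conj_ev, basis_ev]
  have : evX W K p + evX W K q * gy W K ≠ 0 := fun h => by
    obtain ⟨rfl, rfl⟩ := evX_add_eq_zero W h
    simp at hne
  field_simp

/-- Two homomorphisms out of the function field agree if they agree at the generic point. -/
theorem algHom_ext {L : Type*} [Field L] [Algebra K L] {f g : FF W K →ₐ[K] L}
    (hx : f (gx W K) = g (gx W K)) (hy : f (gy W K) = g (gy W K)) : f = g := by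
  refine AlgHom.ext fun z => ?_
  obtain ⟨p, q, r, hr, hz⟩ := exists_repr W z
  have hp : ∀ s : K[X], f (evX W K s) = g (evX W K s) := fun s => by
    rw [evX, ← aeval_algHom_apply, hx, aeval_algHom_apply]
  have h1 := congrArg f hz
  have h2 := congrArg g hz
  simp only [map_mul, map_add, hp, hy] at h1 h2
  have hr' : g (evX W K r) ≠ 0 := by
    rw [Ne, map_eq_zero_iff g g.injective, map_eq_zero_iff _ (evX_injective W)]
    exact hr
  exact mul_right_cancel₀ hr' (h1.trans h2.symm)

theorem evalPoint_injective {L : Type*} [Field L] [Algebra R L] [Algebra K L] [IsScalarTower R K L]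
    {u v : L} (h : (W⁄L).Equation u v) (hu : Transcendental K u) :
    Function.Injective (evalPoint W K h) := by
  refine (injective_iff_map_eq_zero _).2 fun z hz => ?_
  obtain ⟨p, q, rfl⟩ := CoordinateRing.exists_smul_basis_eq z
  by_contra hne
  have hne' : p ≠ 0 ∨ q ≠ 0 := by
    by_contra h0
    push Not at h0
    exact hne (by simp [h0.1, h0.2])
  rw [evalPoint_basis] at hz
  have h' := (equation_iff_aeval (K := K) W u v).1 h
  have : aeval u (normPQ W p q) = (aeval u p + aeval u q * v)
      * (aeval u (p - q * linL W) + aeval u (-q) * v) := by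
    simp only [normPQ, map_sub, map_mul, map_neg, map_pow]
    linear_combination (aeval u q) ^ 2 * h'
  rw [hz, zero_mul] at this
  exact normPQ_ne_zero W hne' (transcendental_iff.1 hu _ this)

/-- Substitution of a point with transcendental abscissa. -/
noncomputable def substHom {L : Type*} [Field L] [Algebra R L] [Algebra K L] [IsScalarTower R K L]
    {u v : L} (h : (W⁄L).Equation u v) (hu : Transcendental K u) : FF W K →ₐ[K] L :=
  IsFractionRing.liftAlgHom (g :=
    { evalPoint W K h with
      commutes' := fun c => by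
        show evalPoint W K h (CoordinateRing.mk (W⁄K) (C (C c))) = _
        rw [evalPoint_mk_C, aeval_C] }) (evalPoint_injective W h hu)

theorem substHom_gx {L : Type*} [Field L] [Algebra R L] [Algebra K L] [IsScalarTower R K L]
    {u v : L} (h : (W⁄L).Equation u v) (hu : Transcendental K u) :
    substHom W h hu (gx W K) = u := by
  rw [substHom, gx, IsFractionRing.liftAlgHom_apply, IsFractionRing.lift_algebraMap]
  exact (evalPoint_mk_C W h X).trans (aeval_X u)

theorem substHom_gy {L : Type*} [Field L] [Algebra R L] [Algebra K L] [IsScalarTower R K L]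
    {u v : L} (h : (W⁄L).Equation u v) (hu : Transcendental K u) :
    substHom W h hu (gy W K) = v := by
  rw [substHom, gy, IsFractionRing.liftAlgHom_apply, IsFractionRing.lift_algebraMap]
  exact evalPoint_mk_Y W h

end Fermat.Agent.Weil
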