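/-
Primitive tuples of polynomials over an algebraically closed field and their degrees.
-/
import Mathlib.FieldTheory.IsAlgClosed.Basic
import Mathlib.RingTheory.PrincipalIdealDomain
import Mathlib.RingTheory.Polynomial.Basic

set_option autoImplicit false

open Polynomial

namespace Fermat.Agent.Weil

variable {K : Type*} [Field K]

/-- A tuple of polynomials without common zero, of degree exactly `N`. -/
structure IsPrimOfDeg {ι : Type*} (N : ℕ) (U : ι → K[X]) : Prop where
  ne_zero : ∀ t : K, (fun i => (U i).eval t) ≠ 0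
  natDegree_le : ∀ i, (U i).natDegree ≤ N
  top_ne_zero : (fun i => (U i).coeff N) ≠ 0

theorem span_eq_top {ι : Type*} [IsAlgClosed K] {U : ι → K[X]}
    (h : ∀ t : K, (fun i => (U i).eval t) ≠ 0) : Ideal.span (Set.range U) = ⊤ := by
  obtain ⟨g, hg⟩ := IsPrincipalIdealRing.principal (Ideal.span (Set.range U))
  rw [hg, Ideal.submodule_span_eq, Ideal.span_singleton_eq_top]
  by_contra hu
  have hex : ∃ t, g.IsRoot t := by
    by_cases h0 : g = 0
    · exact ⟨0, by simp [h0]⟩
    · refine IsAlgClosed.exists_root g fun hd => hu ?_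
      exact Polynomial.isUnit_iff_degree_eq_zero.2 hd
  obtain ⟨t, ht⟩ := hex
  refine h t (funext fun i => ?_)
  have hm : U i ∈ Ideal.span (Set.range U) := Ideal.subset_span ⟨i, rfl⟩
  rw [hg, Ideal.submodule_span_eq, Ideal.mem_span_singleton] at hm
  exact eval_eq_zero_of_dvd_of_eval_eq_zero hm ht

/-- Two proportional primitive tuples have the same degree. -/
theorem IsPrimOfDeg.deg_eq {ι : Type*} [IsAlgClosed K] {U V : ι → K[X]} {M N : ℕ}
    (hU : IsPrimOfDeg M U) (hV : IsPrimOfDeg N V) (h : ∀ i j, U i * V j = U j * V i) : M = N := by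
  have key : ∀ U' V' : ι → K[X], (∀ t : K, (fun i => (V' i).eval t) ≠ 0) →
      (∀ i j, U' i * V' j = U' j * V' i) → ∃ u, ∀ j, U' j = u * V' j := by
    intro U' V' hp hc
    have h1 : (1 : K[X]) ∈ Ideal.span (Set.range V') := by rw [span_eq_top hp]; trivial
    obtain ⟨c, hc1⟩ := (Finsupp.mem_span_range_iff_exists_finsupp).1 h1
    refine ⟨c.sum fun i a => a * U' i, fun j => ?_⟩
    calc U' j = U' j * (c.sum fun i a => a * V' i) := by
          simp only [smul_eq_mul] at hc1
          rw [hc1, mul_one]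
      _ = (c.sum fun i a => a * U' i) * V' j := by
          rw [Finsupp.sum, Finsupp.sum, Finset.mul_sum, Finset.sum_mul]
          refine Finset.sum_congr rfl fun i _ => ?_
          linear_combination (c i) * hc j i
  obtain ⟨u, hu⟩ := key U V hV.ne_zero h
  obtain ⟨v, hv⟩ := key V U hU.ne_zero fun i j => by rw [mul_comm (V i), mul_comm (V j), h j i]
  obtain ⟨j, hj⟩ := Function.ne_iff.1 hV.top_ne_zero
  simp only [Pi.zero_apply] at hj
  have hVj : V j ≠ 0 := fun h0 => hj (by rw [h0, coeff_zero])
  have huv : u * v = 1 := by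
    apply mul_right_cancel₀ hVj
    rw [one_mul]
    conv_rhs => rw [hv j, hu j]
    ring
  have hdeg : ∀ i, (U i).natDegree ≤ (V i).natDegree ∧ (V i).natDegree ≤ (U i).natDegree := by
    intro i
    obtain ⟨c, hc, hcu⟩ := Polynomial.isUnit_iff.1 (IsUnit.of_mul_eq_one v huv)
    rw [hu i, ← hcu, natDegree_C_mul hc.ne_zero]
    exact ⟨le_rfl, le_rfl⟩
  obtain ⟨i, hi⟩ := Function.ne_iff.1 hU.top_ne_zero
  simp only [Pi.zero_apply] at hi
  apply le_antisymm
  · exact ((le_natDegree_of_ne_zero hi).trans (hdeg i).1).trans (hV.natDegree_le i)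
  · exact ((le_natDegree_of_ne_zero hj).trans (hdeg j).2).trans (hU.natDegree_le j)

/-- `P` has degree at most `N` and coefficient `c` at `N`. -/
def HasTop (N : ℕ) (P : K[X]) (c : K) : Prop :=
  P.natDegree ≤ N ∧ P.coeff N = c

namespace HasTop

variable {M N : ℕ} {P Q : K[X]} {c d : K}

theorem self {N : ℕ} (P : K[X]) (h : P.natDegree ≤ N) : HasTop N P (P.coeff N) := ⟨h, rfl⟩

theorem mul (hP : HasTop M P c) (hQ : HasTop N Q d) : HasTop (M + N) (P * Q) (c * d) :=
  ⟨natDegree_mul_le.trans (add_le_add hP.1 hQ.1),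
    by rw [coeff_mul_add_eq_of_natDegree_le hP.1 hQ.1, hP.2, hQ.2]⟩

theorem add (hP : HasTop N P c) (hQ : HasTop N Q d) : HasTop N (P + Q) (c + d) :=
  ⟨(natDegree_add_le _ _).trans (max_le hP.1 hQ.1), by rw [coeff_add, hP.2, hQ.2]⟩

theorem sub (hP : HasTop N P c) (hQ : HasTop N Q d) : HasTop N (P - Q) (c - d) :=
  ⟨(natDegree_sub_le _ _).trans (max_le hP.1 hQ.1), by rw [coeff_sub, hP.2, hQ.2]⟩

theorem smulC (a : K) (hP : HasTop N P c) : HasTop N (C a * P) (a * c) :=
  ⟨(natDegree_C_mul_le a P).trans hP.1, by rw [coeff_C_mul, hP.2]⟩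

theorem one : HasTop 0 (1 : K[X]) 1 := ⟨by simp, by simp⟩

theorem pow (hP : HasTop N P c) : ∀ n : ℕ, HasTop (n * N) (P ^ n) (c ^ n)
  | 0 => by simpa using one
  | n + 1 => by
    rw [add_mul, one_mul, pow_succ, pow_succ]
    exact (HasTop.pow hP n).mul hP

theorem sum {ι : Type*} {s : Finset ι} {P : ι → K[X]} {c : ι → K}
    (h : ∀ i ∈ s, HasTop N (P i) (c i)) : HasTop N (∑ i ∈ s, P i) (∑ i ∈ s, c i) :=
  ⟨natDegree_sum_le_of_forall_le s P fun i hi => (h i hi).1,
    by rw [finsetSum_coeff]; exact Finset.sum_congr rfl fun i hi => (h i hi).2⟩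

end HasTop

section HomogEval

variable {S T : Type*} [CommSemiring S] [CommSemiring T] [Algebra K S] [Algebra K T]

/-- `∑ aᵢ uⁱ wᵐ⁻ⁱ`. -/
noncomputable def homogEval (m : ℕ) (a : K[X]) (u w : S) : S :=
  ∑ i ∈ Finset.range (m + 1), algebraMap K S (a.coeff i) * (u ^ i * w ^ (m - i))

theorem map_homogEval (f : S →ₐ[K] T) (m : ℕ) (a : K[X]) (u w : S) :
    f (homogEval m a u w) = homogEval m a (f u) (f w) := by
  simp [homogEval]

theorem homogEval_mul_right {m : ℕ} {a : K[X]} (ha : a.natDegree ≤ m) (z w : S) :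
    homogEval m a (z * w) w = aeval z a * w ^ m := by
  rw [aeval_eq_sum_range' (Nat.lt_succ_of_le ha), Finset.sum_mul, homogEval]
  refine Finset.sum_congr rfl fun i hi => ?_
  have : i ≤ m := Nat.le_of_lt_succ (Finset.mem_range.1 hi)
  rw [Algebra.smul_def, mul_pow, show w ^ m = w ^ i * w ^ (m - i) by
    rw [← pow_add, Nat.add_sub_of_le this]]
  ring

theorem homogEval_zero_right (m : ℕ) (a : K[X]) (u : S) :
    homogEval m a u 0 = algebraMap K S (a.coeff m) * u ^ m := by
  rw [homogEval, Finset.sum_eq_single m]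
  · simp
  · intro i hi hne
    have : m - i ≠ 0 := by
      have := Nat.le_of_lt_succ (Finset.mem_range.1 hi)
      omega
    simp [zero_pow this]
  · simp

theorem HasTop.homogEval {n : ℕ} {u w : K[X]} {cu cw : K} (hu : HasTop n u cu)
    (hw : HasTop n w cw) (m : ℕ) (a : K[X]) :
    HasTop (m * n) (Weil.homogEval m a u w) (Weil.homogEval m a cu cw) := by
  refine HasTop.sum fun i hi => ?_
  have hi' : i ≤ m := Nat.le_of_lt_succ (Finset.mem_range.1 hi)
  rw [Polynomial.algebraMap_eq, Algebra.algebraMap_self, RingHom.id_apply]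
  refine HasTop.smulC _ ?_
  have := (hu.pow i).mul (hw.pow (m - i))
  rwa [← add_mul, Nat.add_sub_of_le hi'] at this

/-- The homogeneous forms of a coprime pair have no common zero. -/
theorem homogEval_ne_zero {m : ℕ} {U : Fin 2 → K[X]} (hU : IsPrimOfDeg m U) {s : Fin 2 → K}
    (hs : s ≠ 0) : (fun i => homogEval m (U i) (s 0) (s 1)) ≠ 0 := by
  intro h0
  by_cases hw : s 1 = 0
  · have hu : s 0 ≠ 0 := fun hu => hs (by ext i; fin_cases i <;> assumption)
    refine hU.top_ne_zero (funext fun i => ?_)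
    have := congrFun h0 i
    simp only [hw, homogEval_zero_right, Algebra.algebraMap_self, RingHom.id_apply,
      Pi.zero_apply, mul_eq_zero] at this
    exact this.resolve_right (pow_ne_zero _ hu)
  · refine hU.ne_zero (s 0 / s 1) (funext fun i => ?_)
    have := congrFun h0 i
    simp only [Pi.zero_apply] at this
    rw [← div_mul_cancel₀ (s 0) hw, homogEval_mul_right (hU.natDegree_le i), coe_aeval_eq_eval,
      mul_eq_zero] at this
    exact this.resolve_right (pow_ne_zero _ hw)

/-- Composition of coprime pairs multiplies degrees. -/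
theorem IsPrimOfDeg.comp {m n : ℕ} {U V : Fin 2 → K[X]} (hU : IsPrimOfDeg m U)
    (hV : IsPrimOfDeg n V) :
    IsPrimOfDeg (m * n) fun i => homogEval m (U i) (V 0) (V 1) := by
  have hT : ∀ i, HasTop (m * n) (homogEval m (U i) (V 0) (V 1))
      (homogEval m (U i) ((V 0).coeff n) ((V 1).coeff n)) := fun i =>
    (HasTop.self _ (hV.natDegree_le 0)).homogEval (HasTop.self _ (hV.natDegree_le 1)) m (U i)
  refine ⟨fun t => ?_, fun i => (hT i).1, ?_⟩
  · have : (fun i => (homogEval m (U i) (V 0) (V 1)).eval t) =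
        fun i => homogEval m (U i) ((V 0).eval t) ((V 1).eval t) := funext fun i => by
      simpa using map_homogEval (aeval t) m (U i) (V 0) (V 1)
    rw [this]
    exact homogEval_ne_zero hU (s := fun i => (V i).eval t) (hV.ne_zero t)
  · simp only [(hT _).2]
    exact homogEval_ne_zero hU (s := fun i => (V i).coeff n) hV.top_ne_zero

end HomogEval

/-- A coprime pair is primitive of degree the maximum of the two degrees. -/
theorem isPrimOfDeg_of_isCoprime {a b : K[X]} (h : IsCoprime a b) :
    IsPrimOfDeg (max a.natDegree b.natDegree) ![a, b] := by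
  refine ⟨fun t h0 => ?_, fun i => ?_, ?_⟩
  · obtain ⟨x, y, hxy⟩ := h
    have := congrArg (eval t) hxy
    rw [eval_add, eval_mul, eval_mul, show eval t a = 0 from congrFun h0 0,
      show eval t b = 0 from congrFun h0 1] at this
    simp at this
  · fin_cases i <;> simp
  · intro h0
    have ha : a.coeff (max a.natDegree b.natDegree) = 0 := congrFun h0 0
    have hb : b.coeff (max a.natDegree b.natDegree) = 0 := congrFun h0 1
    rcases le_total a.natDegree b.natDegree with hle | hle
    · rw [max_eq_right hle] at hb ha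
      rw [coeff_natDegree, leadingCoeff_eq_zero] at hb
      subst hb
      obtain rfl : a = 0 := leadingCoeff_eq_zero.1 (by
        rw [natDegree_zero, Nat.le_zero] at hle
        rw [← coeff_natDegree, hle]
        simpa using ha)
      exact not_isCoprime_zero_zero h
    · rw [max_eq_left hle] at hb ha
      rw [coeff_natDegree, leadingCoeff_eq_zero] at ha
      subst ha
      obtain rfl : b = 0 := leadingCoeff_eq_zero.1 (by
        rw [natDegree_zero, Nat.le_zero] at hle
        rw [← coeff_natDegree, hle]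
        simpa using hb)
      exact not_isCoprime_zero_zero h

end Fermat.Agent.Weil
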