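/-
The degree of the `x`-coordinate on the points of an elliptic curve with values in its own
function field: parallelogram law and multiplicativity under substitution.
-/
import Fermat.Agent.Weil.FunctionField
import Fermat.Agent.Weil.BiQuad
import Fermat.Agent.Weil.Primitive

set_option autoImplicit false
set_option linter.unusedSectionVars false

open Polynomial WeierstrassCurve.Affine
open scoped WeierstrassCurve.Affine

namespace Fermat.Agent.Weil

variable {R : Type*} [Field R] (W : WeierstrassCurve R) [W.IsElliptic]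
variable {K : Type*} [Field K] [Algebra R K] [DecidableEq K] [DecidableEq (FF W K)]

/-- Points with values in the function field. -/
abbrev FPt (K : Type*) [Field K] [Algebra R K] := (W⁄(FF W K)).Point

/-- The generic point. -/
noncomputable def gen : FPt W K :=
  Point.some (gx W K) (gy W K)
    ((WeierstrassCurve.Affine.equation_iff_nonsingular (W := W⁄(FF W K))).1 (equation_gen W))

/-- Constant points. -/
noncomputable def const : (W⁄K).Point →+ FPt W K :=
  Point.map (IsScalarTower.toAlgHom R K (FF W K))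

/-- Being a constant point. -/
def IsConst (P : FPt W K) : Prop := P ∈ (const W (K := K)).range

/-- A substitution endomorphism acts on points. -/
noncomputable def mapE (f : FF W K →ₐ[K] FF W K) : FPt W K →+ FPt W K :=
  Point.map (f.restrictScalars R)

theorem mapE_some (f : FF W K →ₐ[K] FF W K) {u v : FF W K}
    (h : (W⁄(FF W K)).Nonsingular u v) :
    ∃ h', mapE W f (Point.some u v h) = Point.some (f u) (f v) h' :=
  ⟨_, rfl⟩

theorem mapE_comp (f g : FF W K →ₐ[K] FF W K) (P : FPt W K) :
    mapE W (f.comp g) P = mapE W f (mapE W g P) :=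
  (Point.map_map (g.restrictScalars R) (f.restrictScalars R) P).symm

theorem mapE_id (P : FPt W K) : mapE W (AlgHom.id K (FF W K)) P = P := by
  cases P <;> rfl

theorem mapE_const (f : FF W K →ₐ[K] FF W K) (T : (W⁄K).Point) :
    mapE W f (const W T) = const W T := by
  rcases T with _ | ⟨a, b, h⟩
  · rfl
  · simp only [mapE, const, Point.map_some, IsScalarTower.coe_toAlgHom',
      AlgHom.coe_restrictScalars', AlgHom.commutes]

theorem isConst_iff_mapE {P : FPt W K} (hP : IsConst W P) (f : FF W K →ₐ[K] FF W K) :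
    mapE W f P = P := by
  obtain ⟨T, rfl⟩ := hP
  exact mapE_const W f T

variable [IsAlgClosed K]

theorem mem_range_of_isAlgebraic {L : Type*} [Field L] [Algebra K L] {u : L}
    (hu : IsAlgebraic K u) : ∃ a : K, algebraMap K L a = u := by
  have hi : IsIntegral K u := hu.isIntegral
  exact minpoly.mem_range_of_degree_eq_one K u
    (IsAlgClosed.degree_eq_one_of_irreducible K (minpoly.irreducible hi))

theorem exists_transcendental_of_not_isConst {P : FPt W K} (hP : ¬ IsConst W P) :
    ∃ u v h, P = Point.some u v h ∧ Transcendental K u := by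
  rcases P with _ | ⟨u, v, h⟩
  · exact absurd ⟨0, map_zero _⟩ hP
  refine ⟨u, v, h, rfl, fun hu => hP ?_⟩
  obtain ⟨a, rfl⟩ := mem_range_of_isAlgebraic hu
  have hv : IsAlgebraic K v := by
    refine ⟨X ^ 2 + C ((linL W).eval a) * X - C ((cubF W).eval a), ?_, ?_⟩
    · intro h0
      simpa [coeff_X_pow] using congrArg (fun q => Polynomial.coeff q 2) h0
    · have := (equation_iff_aeval (K := K) W _ v).1 h.left
      rw [aeval_algebraMap_apply_eq_algebraMap_eval,
        aeval_algebraMap_apply_eq_algebraMap_eval] at this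
      simp only [map_sub, map_add, map_mul, map_pow, aeval_C, aeval_X]
      linear_combination this
  obtain ⟨b, rfl⟩ := mem_range_of_isAlgebraic hv
  have hab : (W⁄K).Nonsingular a b :=
    ((W.toAffine).baseChange_nonsingular (f := IsScalarTower.toAlgHom R K (FF W K))
      (RingHom.injective _) a b).1 h
  exact ⟨Point.some a b hab, rfl⟩

theorem not_isConst_gen : ¬ IsConst W (gen W (K := K)) := by
  rintro ⟨T, hT⟩
  rcases T with _ | ⟨a, b, h⟩
  · simp [← Point.zero_def, const, gen] at hT
  · rw [const, gen, Point.map_some] at hT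
    have := (Point.some.inj hT).1
    exact (gx_transcendental W) (this ▸ isAlgebraic_algebraMap a)

theorem exists_subst {P : FPt W K} (hP : ¬ IsConst W P) :
    ∃ f : FF W K →ₐ[K] FF W K, mapE W f (gen W) = P := by
  obtain ⟨u, v, h, rfl, hu⟩ := exists_transcendental_of_not_isConst W hP
  refine ⟨substHom W h.left hu, ?_⟩
  obtain ⟨h', e⟩ := mapE_some W (substHom W h.left hu)
    ((WeierstrassCurve.Affine.equation_iff_nonsingular (W := W⁄(FF W K))).1 (equation_gen W))
  rw [gen, e]
  simp only [substHom_gx, substHom_gy]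

/-- The endomorphism of the function field sending the generic point to `P`. -/
noncomputable def subst (P : FPt W K) (hP : ¬ IsConst W P) : FF W K →ₐ[K] FF W K :=
  (exists_subst W hP).choose

theorem mapE_subst_gen (P : FPt W K) (hP : ¬ IsConst W P) :
    mapE W (subst W P hP) (gen W) = P :=
  (exists_subst W hP).choose_spec

omit [IsAlgClosed K] in
theorem mapE_injective_gen {f g : FF W K →ₐ[K] FF W K}
    (h : mapE W f (gen W) = mapE W g (gen W)) : f = g := by
  rw [mapE, mapE, gen, Point.map_some, Point.map_some] at h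
  exact algHom_ext W (Point.some.inj h).1 (Point.some.inj h).2

theorem not_isConst_neg {P : FPt W K} (hP : ¬ IsConst W P) : ¬ IsConst W (-P) := fun h =>
  hP (neg_mem_iff.1 h)

/-- The hyperelliptic involution. -/
noncomputable def invol : FF W K →ₐ[K] FF W K :=
  subst W (-gen W) (not_isConst_neg W (not_isConst_gen W))

theorem mapE_invol_gen : mapE W (invol W) (gen W (K := K)) = -gen W :=
  mapE_subst_gen W _ _

theorem invol_gx : invol W (gx W K) = gx W K := by
  have h := mapE_invol_gen W (K := K)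
  rw [mapE, gen, Point.map_some, Point.neg_some] at h
  exact (Point.some.inj h).1

theorem invol_gy : invol W (gy W K) = -gy W K - evX W K (linL W) := by
  have h := mapE_invol_gen W (K := K)
  rw [mapE, gen, Point.map_some, Point.neg_some] at h
  refine (Point.some.inj h).2.trans ?_
  rw [negY, evX, aeval_linL]
  ring

theorem invol_evX (p : K[X]) : invol W (evX W K p) = evX W K p := by
  rw [evX, ← aeval_algHom_apply, invol_gx]

theorem invol_comp_invol : (invol W).comp (invol W) = AlgHom.id K (FF W K) := by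
  apply mapE_injective_gen
  rw [mapE_comp, mapE_invol_gen, map_neg, mapE_invol_gen, neg_neg, mapE_id]

/-- The points which the involution negates. -/
noncomputable def negPts : AddSubgroup (FPt W K) :=
  AddMonoidHom.ker (mapE W (invol W) + AddMonoidHom.id (FPt W K))

theorem mem_negPts {P : FPt W K} : P ∈ negPts W ↔ mapE W (invol W) P = -P := by
  rw [negPts, AddMonoidHom.mem_ker, AddMonoidHom.add_apply, AddMonoidHom.id_apply,
    add_eq_zero_iff_eq_neg]

theorem gen_mem_negPts : gen W ∈ negPts W (K := K) :=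
  (mem_negPts W).2 (mapE_invol_gen W)

theorem subst_comm_invol {Q : FPt W K} (hQ : ¬ IsConst W Q) (hQ' : Q ∈ negPts W) :
    (subst W Q hQ).comp (invol W) = (invol W).comp (subst W Q hQ) := by
  apply mapE_injective_gen
  rw [mapE_comp, mapE_comp, mapE_invol_gen, map_neg, mapE_subst_gen, (mem_negPts W).1 hQ']

theorem mapE_mem_negPts {Q : FPt W K} (hQ : ¬ IsConst W Q) (hQ' : Q ∈ negPts W) {P : FPt W K}
    (hP : P ∈ negPts W) : mapE W (subst W Q hQ) P ∈ negPts W := by
  rw [mem_negPts] at hP ⊢
  rw [← mapE_comp, ← subst_comm_invol W hQ hQ', mapE_comp, hP, map_neg]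

theorem linL_ne_zero_or_two_ne_zero : (linL W : K[X]) ≠ 0 ∨ (2 : K[X]) ≠ 0 := by
  by_contra h
  push Not at h
  obtain ⟨hl, h2⟩ := h
  have h1 : (W⁄K).a₁ = 0 := by simpa [linL] using congrArg (fun q => Polynomial.coeff q 1) hl
  have h3 : (W⁄K).a₃ = 0 := by simpa [linL] using congrArg (fun q => Polynomial.coeff q 0) hl
  have h2' : (2 : K) = 0 := by simpa using congrArg (Polynomial.eval 0) h2
  have hΔ : (W⁄K).Δ ≠ 0 := (W⁄K).isUnit_Δ.ne_zero
  apply hΔ
  simp only [WeierstrassCurve.Δ, WeierstrassCurve.b₂, WeierstrassCurve.b₄, WeierstrassCurve.b₆,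
    WeierstrassCurve.b₈, h1, h3]
  linear_combination (144 * (W⁄K).a₂ * (W⁄K).a₄ * (W⁄K).a₆ + 8 * (W⁄K).a₂ ^ 2 * (W⁄K).a₄ ^ 2
    - 32 * (W⁄K).a₂ ^ 3 * (W⁄K).a₆ - 216 * (W⁄K).a₆ ^ 2 - 32 * (W⁄K).a₄ ^ 3) * h2'

theorem two_gy_add_ne_zero : 2 * gy W K + evX W K (linL W) ≠ 0 := by
  intro h
  have h' : evX W K (linL W) + evX W K 2 * gy W K = 0 := by
    rw [map_ofNat]
    linear_combination h
  obtain ⟨h1, h2⟩ := evX_add_eq_zero W h'
  rcases linL_ne_zero_or_two_ne_zero W (K := K) with hh | hh <;> exact hh ‹_›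

/-- Functions fixed by the involution are rational in `gx`. -/
theorem exists_coprime_of_invol_fixed {z : FF W K} (hz : invol W z = z) :
    ∃ a b : K[X], IsCoprime a b ∧ b ≠ 0 ∧ z * evX W K b = evX W K a := by
  obtain ⟨p, q, r, hr, hpq⟩ := exists_repr W z
  have h := congrArg (invol W) hpq
  simp only [map_mul, map_add, hz, invol_evX, invol_gy] at h
  have hq : evX W K q * (2 * gy W K + evX W K (linL W)) = 0 := by linear_combination h - hpq
  rw [mul_eq_zero] at hq
  have hq' := hq.resolve_right (two_gy_add_ne_zero W)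
  rw [hq', zero_mul, add_zero] at hpq
  classical
  obtain ⟨a, ha⟩ := EuclideanDomain.gcd_dvd_left p r
  obtain ⟨b, hb⟩ := EuclideanDomain.gcd_dvd_right p r
  have hg : EuclideanDomain.gcd p r ≠ 0 := fun h0 =>
    hr (EuclideanDomain.gcd_eq_zero_iff.1 h0).2
  have hbez := EuclideanDomain.gcd_eq_gcd_ab p r
  refine ⟨a, b, ⟨EuclideanDomain.gcdA p r, EuclideanDomain.gcdB p r, ?_⟩, ?_, ?_⟩
  · apply mul_left_cancel₀ hg
    conv_rhs => rw [mul_one, hbez]
    conv_rhs => arg 1; arg 1; rw [ha]
    conv_rhs => arg 2; arg 1; rw [hb]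
    ring
  · rintro rfl
    exact hr (by rw [hb, mul_zero])
  · apply mul_left_cancel₀ ((map_ne_zero_iff _ (evX_injective W)).2 hg)
    calc evX W K (EuclideanDomain.gcd p r) * (z * evX W K b) = z * evX W K r := by
          conv_rhs => rw [hb, map_mul]
          ring
      _ = evX W K p := hpq
      _ = evX W K (EuclideanDomain.gcd p r) * evX W K a := by
          conv_lhs => rw [ha, map_mul]

/-- `(a, b)` represents the abscissa of `P`. -/
def Rep (P : FPt W K) (U : Fin 2 → K[X]) : Prop :=
  IsCoprime (U 0) (U 1) ∧ ∃ c : FF W K, ∀ i, evX W K (U i) = c * P.xRep i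

theorem xRep_zero_apply (i : Fin 2) : (0 : FPt W K).xRep i = if i = 0 then 1 else 0 := by
  rw [Point.xRep_zero]
  fin_cases i <;> rfl

theorem xRep_some_apply {u v : FF W K} (h : (W⁄(FF W K)).Nonsingular u v) (i : Fin 2) :
    (Point.some u v h : FPt W K).xRep i = if i = 0 then u else 1 := by
  rw [Point.xRep_some]
  fin_cases i <;> rfl

theorem xRep_mapE (f : FF W K →ₐ[K] FF W K) (P : FPt W K) (i : Fin 2) :
    (mapE W f P).xRep i = f (P.xRep i) := by
  rcases P with _ | ⟨u, v, h⟩
  · rw [← Point.zero_def, map_zero, xRep_zero_apply, apply_ite f, map_one, map_zero]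
  · obtain ⟨h', e⟩ := mapE_some W f h
    rw [e, xRep_some_apply, xRep_some_apply, apply_ite f, map_one]

theorem rep_zero : Rep W (0 : FPt W K) ![1, 0] := by
  refine ⟨isCoprime_one_left, 1, fun i => ?_⟩
  rw [xRep_zero_apply, one_mul]
  fin_cases i
  · exact map_one _
  · exact map_zero _

theorem rep_some {u v : FF W K} (h : (W⁄(FF W K)).Nonsingular u v) {a b : K[X]}
    (hab : IsCoprime a b) (hz : u * evX W K b = evX W K a) :
    Rep W (Point.some u v h : FPt W K) ![a, b] := by
  refine ⟨hab, evX W K b, fun i => ?_⟩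
  rw [xRep_some_apply]
  fin_cases i
  · exact hz.symm.trans (mul_comm _ _)
  · exact (mul_one _).symm

theorem exists_rep {P : FPt W K} (hP : P ∈ negPts W) : ∃ U, Rep W P U := by
  rcases P with _ | ⟨u, v, h⟩
  · exact ⟨_, rep_zero W⟩
  · have h0 := (mem_negPts W).1 hP
    obtain ⟨h', e⟩ := mapE_some W (invol W) h
    rw [e, Point.neg_some] at h0
    have hu : invol W u = u := (Point.some.inj h0).1
    obtain ⟨a, b, hab, -, hz⟩ := exists_coprime_of_invol_fixed W hu
    exact ⟨_, rep_some W h hab hz⟩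

/-- The degree of a pair. -/
noncomputable def pairDeg (U : Fin 2 → K[X]) : ℕ := max (U 0).natDegree (U 1).natDegree

theorem Rep.isPrim {P : FPt W K} {U} (h : Rep W P U) : IsPrimOfDeg (pairDeg U) U := by
  have := isPrimOfDeg_of_isCoprime h.1
  rwa [show ![U 0, U 1] = U from funext fun i => by fin_cases i <;> rfl] at this

theorem Rep.deg_eq {P : FPt W K} {U V} (hU : Rep W P U) (hV : Rep W P V) :
    pairDeg U = pairDeg V := by
  refine (hU.isPrim W).deg_eq (hV.isPrim W) fun i j => evX_injective W ?_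
  obtain ⟨c, hc⟩ := hU.2
  obtain ⟨d, hd⟩ := hV.2
  rw [map_mul, map_mul, hc, hc, hd, hd]
  ring

open scoped Classical in
/-- The degree of the abscissa of `P` as a rational function. -/
noncomputable def deg (P : FPt W K) : ℕ :=
  if h : ∃ U, Rep W P U then pairDeg h.choose else 0

theorem deg_eq_of_rep {P : FPt W K} {U} (hU : Rep W P U) : deg W P = pairDeg U := by
  have h : ∃ U, Rep W P U := ⟨U, hU⟩
  rw [deg, dif_pos h]
  exact h.choose_spec.deg_eq W hU

theorem deg_zero : deg W (0 : FPt W K) = 0 := by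
  rw [deg_eq_of_rep W (rep_zero W)]
  simp [pairDeg]

theorem deg_gen : deg W (gen W (K := K)) = 1 := by
  rw [gen, deg_eq_of_rep W (rep_some W _ (a := X) (b := 1) isCoprime_one_right
    (by rw [map_one, mul_one, evX_X]))]
  simp [pairDeg]

theorem deg_neg (P : FPt W K) : deg W (-P) = deg W P := by
  have h : Rep W (-P) = Rep W P := funext fun U => by rw [Rep, Rep, Point.xRep_neg]
  by_cases hP : ∃ U, Rep W P U
  · obtain ⟨U, hU⟩ := hP
    rw [deg_eq_of_rep W hU, deg_eq_of_rep W (h ▸ hU : Rep W (-P) U)]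
  · have hP' : ¬ ∃ U, Rep W (-P) U := by rwa [h]
    rw [deg, deg, dif_neg hP, dif_neg hP']

theorem deg_eq_zero_iff {P : FPt W K} (hP : P ∈ negPts W) : deg W P = 0 ↔ IsConst W P := by
  obtain ⟨U, hU⟩ := exists_rep W hP
  rw [deg_eq_of_rep W hU]
  obtain ⟨c, hc⟩ := hU.2
  constructor
  · intro h
    by_contra hne
    obtain ⟨u, v, hn, rfl, hu⟩ := exists_transcendental_of_not_isConst W hne
    have hd := Nat.max_eq_zero_iff.1 h
    have h0 := hc 0
    have h1 := hc 1
    simp only [Point.xRep_some, Matrix.cons_val_zero, Matrix.cons_val_one,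
      Matrix.cons_val_fin_one, mul_one] at h0 h1
    rw [eq_C_of_natDegree_eq_zero hd.1, evX, aeval_C] at h0
    rw [eq_C_of_natDegree_eq_zero hd.2, evX, aeval_C] at h1
    rw [← h1] at h0
    by_cases hb : (U 1).coeff 0 = 0
    · rw [hb, map_zero, zero_mul] at h0
      have ha : U 0 = 0 := by
        rw [eq_C_of_natDegree_eq_zero hd.1, (map_eq_zero _).1 h0, map_zero]
      have hb' : U 1 = 0 := by rw [eq_C_of_natDegree_eq_zero hd.2, hb, map_zero]
      exact not_isCoprime_zero_zero (ha ▸ hb' ▸ hU.1)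
    · apply hu
      have : u = algebraMap K (FF W K) ((U 0).coeff 0 / (U 1).coeff 0) := by
        rw [map_div₀, eq_div_iff ((_root_.map_ne_zero _).2 hb), h0, mul_comm]
      exact this ▸ isAlgebraic_algebraMap _
  · intro hcst
    obtain ⟨T, rfl⟩ := hcst
    rw [← deg_eq_of_rep W hU]
    rcases T with _ | ⟨a, b, h⟩
    · rw [← Point.zero_def, map_zero, deg_zero]
    · rw [const, Point.map_some, deg_eq_of_rep W (rep_some W _ (a := C a) (b := 1)
        isCoprime_one_right (by rw [map_one, mul_one, evX, aeval_C]; rfl))]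
      simp [pairDeg]

/-- The symmetric square of two pairs. -/
noncomputable def symPair (U V : Fin 2 → K[X]) : Fin 3 → K[X] :=
  ![U 0 * V 0, U 0 * V 1 + U 1 * V 0, U 1 * V 1]

omit [DecidableEq K] [DecidableEq (FF W K)] [IsAlgClosed K] in
theorem sym_ne_zero {p q : Fin 2 → K} (hp : p ≠ 0) (hq : q ≠ 0) :
    (![p 0 * q 0, p 0 * q 1 + p 1 * q 0, p 1 * q 1] : Fin 3 → K) ≠ 0 := by
  intro h
  have h0 : p 0 * q 0 = 0 := congrFun h 0
  have h1 : p 0 * q 1 + p 1 * q 0 = 0 := congrFun h 1
  have h2 : p 1 * q 1 = 0 := congrFun h 2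
  rcases mul_eq_zero.1 h0 with ha | ha
  · have hp1 : p 1 ≠ 0 := fun hb => hp (funext fun i => by fin_cases i <;> assumption)
    rw [ha, zero_mul, zero_add] at h1
    exact hq (funext fun i => by
      fin_cases i <;> [exact (mul_eq_zero.1 h1).resolve_left hp1;
        exact (mul_eq_zero.1 h2).resolve_left hp1])
  · have hq1 : q 1 ≠ 0 := fun hb => hq (funext fun i => by fin_cases i <;> assumption)
    rw [ha, mul_zero, add_zero] at h1
    exact hp (funext fun i => by
      fin_cases i <;> [exact (mul_eq_zero.1 h1).resolve_right hq1;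
        exact (mul_eq_zero.1 h2).resolve_right hq1])

omit [IsAlgClosed K] [DecidableEq K] [DecidableEq (FF W K)] in
theorem isPrim_symPair {m n : ℕ} {U V : Fin 2 → K[X]} (hU : IsPrimOfDeg m U)
    (hV : IsPrimOfDeg n V) : IsPrimOfDeg (m + n) (symPair U V) := by
  have hu := fun i => HasTop.self _ (hU.natDegree_le i)
  have hv := fun i => HasTop.self _ (hV.natDegree_le i)
  have hT : ∀ i, HasTop (m + n) (symPair U V i) (![(U 0).coeff m * (V 0).coeff n,
      (U 0).coeff m * (V 1).coeff n + (U 1).coeff m * (V 0).coeff n,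
      (U 1).coeff m * (V 1).coeff n] i) := fun i => by
    fin_cases i
    exacts [(hu 0).mul (hv 0), ((hu 0).mul (hv 1)).add ((hu 1).mul (hv 0)), (hu 1).mul (hv 1)]
  refine ⟨fun t => ?_, fun i => (hT i).1, ?_⟩
  · have : (fun i => (symPair U V i).eval t) = ![(U 0).eval t * (V 0).eval t,
        (U 0).eval t * (V 1).eval t + (U 1).eval t * (V 0).eval t,
        (U 1).eval t * (V 1).eval t] := funext fun i => by fin_cases i <;> simp [symPair]
    rw [this]
    exact sym_ne_zero (p := fun i => (U i).eval t) (q := fun i => (V i).eval t)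
      (hU.ne_zero t) (hV.ne_zero t)
  · have : (fun i => (symPair U V i).coeff (m + n)) = _ := funext fun i => (hT i).2
    rw [this]
    exact sym_ne_zero (p := fun i => (U i).coeff m) (q := fun i => (V i).coeff n)
      hU.top_ne_zero hV.top_ne_zero

omit [IsAlgClosed K] [DecidableEq K] [DecidableEq (FF W K)] in
theorem isPrim_biquad {N : ℕ} {S : Fin 3 → K[X]} (hS : IsPrimOfDeg N S) :
    IsPrimOfDeg (2 * N) (biquad (W⁄K[X]) S) := by
  have e : ((W⁄K).map (C : K →+* K[X])) = W⁄K[X] := by
    exact WeierstrassCurve.map_baseChange W (IsScalarTower.toAlgHom R K K[X])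
  have hS' := fun i => HasTop.self _ (hS.natDegree_le i)
  set c : Fin 3 → K := fun i => (S i).coeff N with hc
  have hT : ∀ i, HasTop (2 * N) (biquad (W⁄K[X]) S i) (biquad (W⁄K) c i) := fun i => by
    rw [← e, two_mul]
    have h2 : ∀ (a : K) (i j : Fin 3), HasTop (N + N) (C a * S i * S j) (a * c i * c j) :=
      fun a i j => by
        rw [mul_assoc, mul_assoc]
        exact ((hS' i).mul (hS' j)).smulC a
    fin_cases i
    · simp only [biquad, WeierstrassCurve.map_b₄, WeierstrassCurve.map_b₆, WeierstrassCurve.map_b₈]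
      have := (((hS' 0).mul (hS' 0)).sub (h2 (W⁄K).b₄ 0 2)).sub (h2 (W⁄K).b₆ 1 2) |>.sub
        (h2 (W⁄K).b₈ 2 2)
      simpa [sq, mul_assoc] using this
    · simp only [biquad, WeierstrassCurve.map_b₂, WeierstrassCurve.map_b₄, WeierstrassCurve.map_b₆]
      have := ((h2 2 1 0).add (h2 (W⁄K).b₂ 0 2)).add (h2 (W⁄K).b₄ 1 2) |>.add
        (h2 (W⁄K).b₆ 2 2)
      simpa [sq, mul_assoc, map_ofNat] using this
    · have := ((hS' 1).mul (hS' 1)).sub (h2 4 0 2)
      simpa [biquad, sq, mul_assoc, map_ofNat] using this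
  refine ⟨fun t => ?_, fun i => (hT i).1, ?_⟩
  · have : (fun i => (biquad (W⁄K[X]) S i).eval t) =
        biquad (W⁄K) fun i => (S i).eval t := funext fun i => by
      rw [← coe_evalRingHom, map_biquad, ← e, WeierstrassCurve.map_map]
      rw [show (evalRingHom t).comp (C : K →+* K[X]) = RingHom.id K from RingHom.ext (by simp),
        WeierstrassCurve.map_id]
      rfl
    rw [this]
    exact biquad_ne_zero _ (hS.ne_zero t)
  · simp only [(hT _).2]
    exact biquad_ne_zero _ hS.top_ne_zero

/-- The parallelogram law, with equality. -/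
theorem deg_parallelogram {P Q : FPt W K} (hP : P ∈ negPts W) (hQ : Q ∈ negPts W) :
    deg W (P + Q) + deg W (P - Q) = 2 * deg W P + 2 * deg W Q := by
  obtain ⟨A, hA⟩ := exists_rep W hP
  obtain ⟨B, hB⟩ := exists_rep W hQ
  obtain ⟨S, hS⟩ := exists_rep W (add_mem hP hQ)
  obtain ⟨D, hD⟩ := exists_rep W (sub_mem hP hQ)
  rw [deg_eq_of_rep W hA, deg_eq_of_rep W hB, deg_eq_of_rep W hS, deg_eq_of_rep W hD, ← mul_add]
  refine (isPrim_symPair (hS.isPrim W) (hD.isPrim W)).deg_eq
    (isPrim_biquad W (isPrim_symPair (hA.isPrim W) (hB.isPrim W))) fun i j => evX_injective W ?_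
  have key : ∀ {P' Q' : FPt W K} {U V}, Rep W P' U → Rep W Q' V →
      ∃ c : FF W K, evX W K ∘ symPair U V = c • P'.sym2x Q' := by
    intro P' Q' U V hU hV
    obtain ⟨a, ha⟩ := hU.2
    obtain ⟨b, hb⟩ := hV.2
    refine ⟨a * b, funext fun i => ?_⟩
    fin_cases i <;> simp [symPair, Point.sym2x, ha, hb] <;> ring
  obtain ⟨c, hc⟩ := key hA hB
  obtain ⟨d, hd⟩ := key hS hD
  have e : (W⁄K[X]).map (evX W K).toRingHom = W⁄(FF W K) :=
    WeierstrassCurve.map_baseChange W ((evX W K).restrictScalars R)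
  have hb : ∀ i, evX W K (biquad (W⁄K[X]) (symPair A B) i)
      = c ^ 2 * biquad (W⁄(FF W K)) (P.sym2x Q) i := fun i => by
    have h1 := map_biquad (W⁄K[X]) (evX W K).toRingHom (symPair A B) i
    rw [show WeierstrassCurve.map (W⁄K[X]) (evX W K).toRingHom = W⁄(FF W K) from e,
      show ((evX W K).toRingHom : K[X] → FF W K) = evX W K from rfl, hc, biquad_smul] at h1
    refine h1.trans ?_
    simp
  have hd' : ∀ i, evX W K (symPair S D i) = d * (P + Q).sym2x (P - Q) i := fun i => congrFun hd i
  rw [map_mul, map_mul, hb, hb, hd', hd']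
  linear_combination d * c ^ 2 * biquad_sym2x_cross P Q j i

/-- Composition multiplies degrees. -/
theorem deg_mapE_subst {P Q : FPt W K} (hP : P ∈ negPts W) (hQ : Q ∈ negPts W)
    (hQc : ¬ IsConst W Q) : deg W (mapE W (subst W Q hQc) P) = deg W P * deg W Q := by
  obtain ⟨A, hA⟩ := exists_rep W hP
  obtain ⟨B, hB⟩ := exists_rep W hQ
  obtain ⟨C', hC⟩ := exists_rep W (mapE_mem_negPts W hQc hQ hP)
  rw [deg_eq_of_rep W hA, deg_eq_of_rep W hB, deg_eq_of_rep W hC]
  refine (hC.isPrim W).deg_eq ((hA.isPrim W).comp (hB.isPrim W)) fun i j => evX_injective W ?_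
  obtain ⟨u, v, h, rfl, hu⟩ := exists_transcendental_of_not_isConst W hQc
  have hgen := mapE_subst_gen W (Point.some u v h) hQc
  rw [mapE, gen, Point.map_some] at hgen
  have hsx : subst W (Point.some u v h) hQc (gx W K) = u := (Point.some.inj hgen).1
  set σ := subst W (Point.some u v h) hQc
  obtain ⟨a, ha⟩ := hA.2
  obtain ⟨b, hb⟩ := hB.2
  obtain ⟨c, hc⟩ := hC.2
  have hw : evX W K (B 1) = b := by simpa using hb 1
  have hz : evX W K (B 0) = u * b := by simpa [mul_comm] using hb 0
  have hcomp : ∀ i, evX W K (homogEval (pairDeg A) (A i) (B 0) (B 1))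
      = b ^ pairDeg A * σ (evX W K (A i)) := fun i => by
    rw [map_homogEval, hw, hz, homogEval_mul_right ((hA.isPrim W).natDegree_le i)]
    conv_rhs => rw [evX, ← aeval_algHom_apply, hsx]
    ring
  have hx : ∀ i, (mapE W σ P).xRep i = σ (P.xRep i) := xRep_mapE W σ P
  rw [map_mul, map_mul, hcomp, hcomp, hc, hc, ha, ha, map_mul, map_mul, hx, hx]
  ring

end Fermat.Agent.Weil
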