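/-
A multiplicative quadratic form on a commutative ring satisfies the Cayley-Hamilton identity.
-/
import Mathlib.Algebra.Ring.Basic
import Mathlib.Algebra.Order.Ring.Int
import Mathlib.Tactic.LinearCombination
import Mathlib.Tactic.Positivity
import Mathlib.Tactic.Abel
import Mathlib.Tactic.Ring
import Mathlib.Tactic.Linarith

set_option autoImplicit false

namespace Fermat.Agent.Weil

variable {A : Type*} [CommRing A]

/-- A multiplicative quadratic form with values in `ℤ`, normalised at `1`. -/
structure MulQuad (A : Type*) [CommRing A] where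
  toFun : A → ℤ
  parallelogram : ∀ x y, toFun (x + y) + toFun (x - y) = 2 * toFun x + 2 * toFun y
  map_mul : ∀ x y, toFun (x * y) = toFun x * toFun y
  map_one : toFun 1 = 1

namespace MulQuad

variable (N : MulQuad A)

/-- The polar form. -/
def polar (x y : A) : ℤ := N.toFun (x + y) - N.toFun x - N.toFun y

theorem map_zero : N.toFun 0 = 0 := by
  have h := N.parallelogram 0 0
  simp only [add_zero, sub_zero] at h
  linarith

theorem map_neg (x : A) : N.toFun (-x) = N.toFun x := by
  have h := N.parallelogram 0 x
  simp only [zero_add, zero_sub, N.map_zero] at h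
  linarith

theorem polar_comm (x y : A) : N.polar x y = N.polar y x := by
  rw [polar, polar, add_comm x y]
  ring

theorem polar_add (x y z : A) : N.polar (x + y) z = N.polar x z + N.polar y z := by
  have h1 := N.parallelogram (x + z) y
  have h2 := N.parallelogram (y + z) x
  have h3 := N.parallelogram z (x - y)
  have h4 := N.parallelogram x y
  rw [show x + z + y = x + y + z by abel] at h1
  rw [show y + z + x = x + y + z by abel] at h2
  rw [show z + (x - y) = x + z - y by abel, show z - (x - y) = y + z - x by abel] at h3
  simp only [polar]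
  linarith

theorem polar_add_right (x y z : A) : N.polar x (y + z) = N.polar x y + N.polar x z := by
  rw [polar_comm, polar_add, N.polar_comm y, N.polar_comm z]

/-- The polar form as a homomorphism in the second variable. -/
def polarHom (x : A) : A →+ ℤ :=
  AddMonoidHom.mk' (N.polar x) (N.polar_add_right x)

theorem polar_intCast_mul (x y : A) (n : ℤ) : N.polar x ((n : A) * y) = n * N.polar x y := by
  have := map_zsmul (N.polarHom x) n y
  rw [zsmul_eq_mul, zsmul_eq_mul] at this
  exact this

theorem polar_self (x : A) : N.polar x x = 2 * N.toFun x := by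
  have h := N.parallelogram x x
  rw [sub_self, N.map_zero] at h
  rw [polar]
  linarith

theorem map_intCast (n : ℤ) : N.toFun (n : A) = n ^ 2 := by
  have h : N.polar (n : A) (n : A) = n ^ 2 * 2 := by
    have e1 : ∀ z : A, N.polar z (n : A) = n * N.polar z 1 := fun z => by
      simpa using N.polar_intCast_mul z 1 n
    rw [e1, N.polar_comm, e1, N.polar_self, N.map_one]
    ring
  rw [N.polar_self] at h
  linarith

theorem map_intCast_mul (n : ℤ) (x : A) : N.toFun ((n : A) * x) = n ^ 2 * N.toFun x := by
  rw [N.map_mul, N.map_intCast]

theorem map_add (x y : A) : N.toFun (x + y) = N.toFun x + N.toFun y + N.polar x y := by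
  rw [polar]
  ring

theorem polar_mul_mul (x y z : A) : N.polar (x * y) (x * z) = N.toFun x * N.polar y z := by
  rw [polar, polar, ← mul_add, N.map_mul, N.map_mul, N.map_mul]
  ring

theorem polar_cross (x y z w : A) :
    N.polar (x * y) (w * z) + N.polar (x * z) (w * y) = N.polar x w * N.polar y z := by
  have h := N.polar_mul_mul (x + w) y z
  rw [add_mul, add_mul, N.polar_add, N.polar_add_right, N.polar_add_right, N.polar_mul_mul,
    N.polar_mul_mul, N.map_add, N.polar_comm (w * y) (x * z)] at h
  linear_combination h

/-- The trace. -/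
def trace (x : A) : ℤ := N.polar 1 x

theorem map_one_sub (x : A) : N.toFun (1 - x) = 1 + N.toFun x - N.trace x := by
  rw [sub_eq_add_neg, N.map_add, N.map_one, N.map_neg, trace]
  have := N.polar_intCast_mul 1 x (-1)
  simp at this
  rw [this]
  ring

/-- Cayley-Hamilton: the form vanishes at `x² - t x + n`. -/
theorem map_charpoly (x : A) :
    N.toFun (x * x - (N.trace x : A) * x + (N.toFun x : A)) = 0 := by
  set t := N.trace x with ht
  set n := N.toFun x with hn
  have h1 : N.polar (x * x) x = n * t := by
    have := N.polar_mul_mul x x 1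
    rw [mul_one, N.polar_comm x 1, ← hn] at this
    exact this.trans (by rw [ht, trace])
  have h2 : N.polar (x * x) 1 = t ^ 2 - 2 * n := by
    have := N.polar_cross x x 1 1
    rw [mul_one, mul_one, one_mul, N.polar_self x, N.polar_comm x 1, ← hn] at this
    rw [show t = N.polar 1 x from rfl]
    linarith
  have e : x * x - (t : A) * x + (n : A) = (x * x + ((-t : ℤ) : A) * x) + (n : A) * 1 := by
    push_cast
    ring
  rw [e, N.map_add (x * x + _), N.map_add (x * x), N.map_mul, N.map_intCast_mul,
    N.map_intCast_mul, N.polar_intCast_mul, N.polar_add, N.polar_intCast_mul, h1,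
    N.polar_intCast_mul]
  rw [N.polar_comm (((-t : ℤ) : A) * x), N.polar_intCast_mul, N.map_one, h2, ← hn,
    show N.polar 1 x = t from rfl]
  ring

theorem trace_sq_le (x : A) (hpos : ∀ z, 0 ≤ N.toFun z) : N.trace x ^ 2 ≤ 4 * N.toFun x := by
  have h := hpos (((-N.trace x : ℤ) : A) * 1 + ((2 : ℤ) : A) * x)
  rw [N.map_add, N.map_intCast_mul, N.map_intCast_mul, N.polar_intCast_mul, N.polar_comm,
    N.polar_intCast_mul, N.map_one, N.polar_comm, ← trace] at h
  linarith

end MulQuad

end Fermat.Agent.Weil
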