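/-
The degree as a multiplicative quadratic form on `ℤ[Φ]`, for an endomorphism `Φ` of the group of
points with values in the function field which commutes with substitutions.
-/
import Fermat.Agent.Weil.Degree
import Fermat.Agent.Weil.Quadratic
import Mathlib.Algebra.Polynomial.AlgebraMap

set_option autoImplicit false
set_option linter.unusedSectionVars false

open Polynomial WeierstrassCurve.Affine
open scoped WeierstrassCurve.Affine

namespace Fermat.Agent.Weil

variable {R : Type*} [Field R] (W : WeierstrassCurve R) [W.IsElliptic]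
variable {K : Type*} [Field K] [Algebra R K] [DecidableEq K] [DecidableEq (FF W K)]

/-- An endomorphism which commutes with substitutions, with its action on constants. -/
def Endo (K : Type*) [Field K] [Algebra R K] [DecidableEq K] [DecidableEq (FF W K)] :=
  { p : (FPt W K →+ FPt W K) × ((W⁄K).Point →+ (W⁄K).Point) //
    (∀ (f : FF W K →ₐ[K] FF W K) P, mapE W f (p.1 P) = p.1 (mapE W f P)) ∧
      ∀ T, p.1 (const W T) = const W (p.2 T) }

variable {W}

namespace Endo

/-- Constructor. -/
def ofHom (g : FPt W K →+ FPt W K) (c : (W⁄K).Point →+ (W⁄K).Point)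
    (h : ∀ (f : FF W K →ₐ[K] FF W K) P, mapE W f (g P) = g (mapE W f P))
    (h' : ∀ T, g (const W T) = const W (c T)) : Endo W K :=
  ⟨(g, c), h, h'⟩

variable (Φ : Endo W K)

/-- The action on points with values in the function field. -/
def onGen : FPt W K →+ FPt W K := Φ.1.1

/-- The action on constant points. -/
def onConst : (W⁄K).Point →+ (W⁄K).Point := Φ.1.2

theorem comm (f : FF W K →ₐ[K] FF W K) (P : FPt W K) :
    mapE W f (Φ.onGen P) = Φ.onGen (mapE W f P) := Φ.2.1 f P

theorem comm_const (T : (W⁄K).Point) : Φ.onGen (const W T) = const W (Φ.onConst T) := Φ.2.2 T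

/-- `f(Φ)`. -/
noncomputable def act (f : ℤ[X]) : Module.End ℤ (FPt W K) :=
  aeval Φ.onGen.toIntLinearMap f

/-- `f(Φ)` on constants. -/
noncomputable def actC (f : ℤ[X]) : Module.End ℤ (W⁄K).Point :=
  aeval Φ.onConst.toIntLinearMap f

theorem act_X (P : FPt W K) : Φ.act X P = Φ.onGen P := by
  rw [act, aeval_X]
  rfl

theorem mapE_act (σ : FF W K →ₐ[K] FF W K) (f : ℤ[X]) (P : FPt W K) :
    mapE W σ (Φ.act f P) = Φ.act f (mapE W σ P) := by
  induction f using Polynomial.induction_on generalizing P with
  | C a =>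
    simp only [act, aeval_C, Module.algebraMap_end_apply]
    exact map_zsmul (mapE W σ) a P
  | add f g hf hg =>
    simp only [act, map_add, LinearMap.add_apply] at hf hg ⊢
    rw [hf, hg]
  | monomial n a h =>
    have e : ∀ Q : FPt W K, Φ.act (C a * X ^ (n + 1)) Q = Φ.act (C a * X ^ n) (Φ.onGen Q) :=
      fun Q => by
        rw [pow_succ, ← mul_assoc, act, map_mul, Module.End.mul_apply, aeval_X]
        rfl
    rw [e, e, h, Φ.comm]

theorem act_const (f : ℤ[X]) (T : (W⁄K).Point) : Φ.act f (const W T) = const W (Φ.actC f T) := by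
  induction f using Polynomial.induction_on generalizing T with
  | C a =>
    simp only [act, actC, aeval_C, Module.algebraMap_end_apply]
    exact (map_zsmul (const W) a T).symm
  | add f g hf hg =>
    simp only [act, actC, map_add, LinearMap.add_apply] at hf hg ⊢
    rw [hf, hg]
  | monomial n a h =>
    have e : Φ.act (C a * X ^ (n + 1)) (const W T) =
        Φ.act (C a * X ^ n) (Φ.onGen (const W T)) := by
      rw [pow_succ, ← mul_assoc, act, map_mul, Module.End.mul_apply, aeval_X]
      rfl
    have e' : Φ.actC (C a * X ^ (n + 1)) T = Φ.actC (C a * X ^ n) (Φ.onConst T) := by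
      rw [pow_succ, ← mul_assoc, actC, map_mul, Module.End.mul_apply, aeval_X]
      rfl
    rw [e, e', Φ.comm_const, h]

variable [IsAlgClosed K]

theorem act_gen_mem (f : ℤ[X]) : Φ.act f (gen W) ∈ negPts W := by
  rw [mem_negPts, mapE_act, mapE_invol_gen, map_neg]

theorem act_mul_gen_of_not_isConst (f g : ℤ[X]) (hg : ¬ IsConst W (Φ.act g (gen W))) :
    Φ.act (f * g) (gen W) = mapE W (subst W _ hg) (Φ.act f (gen W)) := by
  rw [mapE_act, mapE_subst_gen, act, map_mul]
  rfl

theorem deg_act_mul (f g : ℤ[X]) :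
    deg W (Φ.act (f * g) (gen W)) = deg W (Φ.act f (gen W)) * deg W (Φ.act g (gen W)) := by
  by_cases hg : IsConst W (Φ.act g (gen W))
  · obtain ⟨T, hT⟩ := hg
    rw [(deg_eq_zero_iff W (Φ.act_gen_mem g)).2 ⟨T, hT⟩, mul_zero,
      deg_eq_zero_iff W (Φ.act_gen_mem (f * g))]
    refine ⟨Φ.actC f T, ?_⟩
    rw [← Φ.act_const, hT, act, act, act, map_mul]
    rfl
  · rw [act_mul_gen_of_not_isConst Φ f g hg]
    exact deg_mapE_subst W (Φ.act_gen_mem f) (Φ.act_gen_mem g) hg

/-- The degree as a multiplicative quadratic form. -/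
noncomputable def degQuad : MulQuad ℤ[X] where
  toFun f := (deg W (Φ.act f (gen W)) : ℤ)
  parallelogram f g := by
    have h := deg_parallelogram W (Φ.act_gen_mem f) (Φ.act_gen_mem g)
    simp only [act, map_add, map_sub, LinearMap.add_apply, LinearMap.sub_apply] at h ⊢
    exact_mod_cast h
  map_mul f g := by exact_mod_cast Φ.deg_act_mul f g
  map_one := by
    have : Φ.act 1 (gen W) = gen W := by rw [act, map_one, Module.End.one_apply]
    rw [this, deg_gen, Nat.cast_one]

/-- The trace of `Φ`. -/
noncomputable def trace : ℤ := Φ.degQuad.trace X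

/-- The degree of `Φ`. -/
noncomputable def degree : ℤ := Φ.degQuad.toFun X

/-- The characteristic polynomial. -/
noncomputable def charPoly : ℤ[X] := X * X - (Φ.trace : ℤ[X]) * X + (Φ.degree : ℤ[X])

theorem act_charPoly_gen : Φ.act Φ.charPoly (gen W) = 0 := by
  have h0 : Φ.degQuad.toFun Φ.charPoly = 0 := Φ.degQuad.map_charpoly X
  have hd : deg W (Φ.act Φ.charPoly (gen W)) = 0 := Int.natCast_eq_zero.1 h0
  obtain ⟨T, hT⟩ := (deg_eq_zero_iff W (Φ.act_gen_mem _)).1 hd
  -- substitute twice the generic point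
  have h2 : ¬ IsConst W (Φ.act ((2 : ℤ) : ℤ[X]) (gen W)) := by
    intro hc
    have hz : Φ.degQuad.toFun ((2 : ℤ) : ℤ[X]) = 0 :=
      Int.natCast_eq_zero.2 ((deg_eq_zero_iff W (Φ.act_gen_mem _)).2 hc)
    rw [MulQuad.map_intCast] at hz
    norm_num at hz
  have h := act_mul_gen_of_not_isConst Φ Φ.charPoly _ h2
  rw [mul_comm, act, map_mul, Module.End.mul_apply, map_intCast, ← act, ← hT,
    mapE_const, Module.End.intCast_apply, two_zsmul] at h
  rw [← hT]
  exact add_eq_left.1 h

/-- Cayley-Hamilton on the constant points. -/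
theorem actC_charPoly (P : (W⁄K).Point) : Φ.actC Φ.charPoly P = 0 := by
  have hc : ¬ IsConst W (gen W + const W P) := fun h => not_isConst_gen W (K := K) <| by
    have := add_mem h (neg_mem (⟨P, rfl⟩ : const W P ∈ (const W (K := K)).range))
    rwa [add_neg_cancel_right] at this
  have h := Φ.mapE_act (subst W _ hc) Φ.charPoly (gen W)
  rw [act_charPoly_gen, map_zero, mapE_subst_gen, map_add, act_charPoly_gen, zero_add,
    act_const] at h
  exact Point.map_injective _ (h.symm.trans (map_zero (const W)).symm)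

theorem trace_sq_le : Φ.trace ^ 2 ≤ 4 * Φ.degree :=
  Φ.degQuad.trace_sq_le X fun _ => Int.natCast_nonneg _

end Endo

end Fermat.Agent.Weil
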