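/-
Over a finite field with `q` elements, the abscissa of `φ(P) - P` is a rational function of
degree `#E(𝔽_q)`.
-/
import Fermat.Agent.Weil.Degree
import Mathlib.FieldTheory.Finite.Basic
import Mathlib.Algebra.Polynomial.RingDivision
import Mathlib.RingTheory.Polynomial.Basic
import Mathlib.SetTheory.Cardinal.Finite

set_option autoImplicit false
set_option linter.unusedSectionVars false
set_option linter.style.haveILetI false

open Polynomial WeierstrassCurve.Affine
open scoped WeierstrassCurve.Affine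

namespace Fermat.Agent.Weil

variable {R : Type*} [Field R] [Finite R] (W : WeierstrassCurve R)

/-- The `q`-power map of an `R`-algebra. -/
noncomputable def frobHom (R : Type*) [Field R] [Finite R] (A : Type*) [CommRing A] [Algebra R A] :
    A →ₐ[R] A :=
  haveI := Fintype.ofFinite R
  FiniteField.frobeniusAlgHom R A

theorem frobHom_apply {A : Type*} [CommRing A] [Algebra R A] (x : A) :
    frobHom R A x = x ^ Nat.card R := by
  simp [frobHom, @Nat.card_eq_fintype_card R (Fintype.ofFinite R)]

theorem pow_q_add {A : Type*} [CommRing A] [Algebra R A] (x y : A) :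
    (x + y) ^ Nat.card R = x ^ Nat.card R + y ^ Nat.card R := by
  simp only [← frobHom_apply, map_add]

theorem pow_q_algebraMap {A : Type*} [CommRing A] [Algebra R A] (c : R) :
    algebraMap R A c ^ Nat.card R = algebraMap R A c := by
  rw [← frobHom_apply, AlgHom.commutes]

theorem pow_q_neg {A : Type*} [CommRing A] [Algebra R A] (x : A) :
    (-x) ^ Nat.card R = -(x ^ Nat.card R) := by
  simp only [← frobHom_apply, map_neg]

theorem two_le_q : 2 ≤ Nat.card R := Finite.one_lt_card

theorem q_eq_two_or : Nat.card R = 2 ∧ (2 : R) = 0 ∨ 3 ≤ Nat.card R := by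
  rcases (two_le_q (R := R)).eq_or_lt with h | h
  · refine Or.inl ⟨h.symm, ?_⟩
    haveI := Fintype.ofFinite R
    have h2 := FiniteField.cast_card_eq_zero R
    rwa [← Nat.card_eq_fintype_card, ← h] at h2
  · exact Or.inr h

variable {K : Type*} [Field K] [Algebra R K]

variable (K) in
theorem prod_X_sub_eq [Fintype R] :
    (X ^ Nat.card R - X : K[X]) = ∏ c : R, (X - C (algebraMap R K c)) := by
  have h : (X ^ Nat.card R - X : R[X]) = ∏ c : R, (X - C c) := by
    rw [Nat.card_eq_fintype_card]
    have hr := FiniteField.roots_X_pow_card_sub_X R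
    have hq : 1 < Fintype.card R := Fintype.one_lt_card
    have hm : (X ^ Fintype.card R - X : R[X]).Monic :=
      monic_X_pow_sub (by rw [degree_X]; exact_mod_cast hq)
    have hd : (X ^ Fintype.card R - X : R[X]).natDegree = Fintype.card R :=
      FiniteField.X_pow_card_sub_X_natDegree_eq R hq
    have := prod_multiset_X_sub_C_of_monic_of_roots_card_eq hm (by rw [hr, hd]; rfl)
    rw [hr] at this
    exact this.symm
  have := congrArg (Polynomial.map (algebraMap R K)) h
  rw [Polynomial.map_sub, Polynomial.map_pow, map_X, Polynomial.map_prod] at this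
  simpa using this

theorem mem_range_of_pow_q_eq {y : K} (h : y ^ Nat.card R = y) :
    ∃ c : R, algebraMap R K c = y := by
  haveI := Fintype.ofFinite R
  have := congrArg (eval y) (prod_X_sub_eq (R := R) K)
  rw [eval_sub, eval_pow, eval_X, h, sub_self, eval_prod, eq_comm,
    Finset.prod_eq_zero_iff] at this
  obtain ⟨c, -, hc⟩ := this
  rw [eval_sub, eval_X, eval_C, sub_eq_zero] at hc
  exact ⟨c, hc.symm⟩

variable (K)

/-- The embedding of polynomials in the coordinate ring. -/
noncomputable def polyA : K[X] →ₐ[R] (W⁄K).CoordinateRing :=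
  IsScalarTower.toAlgHom R K[X] (W⁄K).CoordinateRing

/-- The class of `y`. -/
noncomputable def yA : (W⁄K).CoordinateRing := CoordinateRing.mk (W⁄K) X

variable {K}

theorem polyA_eq (p : K[X]) : polyA W K p = CoordinateRing.mk (W⁄K) (C p) := rfl

theorem polyA_basis (p q : K[X]) :
    p • (1 : (W⁄K).CoordinateRing) + q • CoordinateRing.mk (W⁄K) X
      = polyA W K p + polyA W K q * yA W K := by
  rw [CoordinateRing.smul, CoordinateRing.smul, mul_one]
  rfl

theorem exists_polyA_repr (z : (W⁄K).CoordinateRing) :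
    ∃ p q : K[X], z = polyA W K p + polyA W K q * yA W K := by
  obtain ⟨p, q, rfl⟩ := CoordinateRing.exists_smul_basis_eq z
  exact ⟨p, q, polyA_basis W p q⟩

theorem dvd_of_polyA_dvd {d h : K[X]} (hd : polyA W K d ∣ polyA W K h) : d ∣ h := by
  obtain ⟨w, hw⟩ := hd
  obtain ⟨p, q, rfl⟩ := exists_polyA_repr W w
  have h0 : (h - d * p) • (1 : (W⁄K).CoordinateRing) + (-(d * q)) • CoordinateRing.mk (W⁄K) X
      = 0 := by
    rw [polyA_basis]
    simp only [map_sub, map_mul, map_neg, hw]
    ring
  exact ⟨p, sub_eq_zero.1 (CoordinateRing.smul_basis_eq_zero h0).1⟩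

theorem yA_sq :
    yA W K ^ 2 + polyA W K (linL W) * yA W K = polyA W K (cubF W) := by
  have h : (CoordinateRing.mk (W⁄K)) (W⁄K).polynomial = 0 := AdjoinRoot.mk_self
  simp only [WeierstrassCurve.Affine.polynomial, map_sub, map_add, map_mul, map_pow] at h
  simp only [polyA_eq, yA, linL, cubF, map_add, map_mul, map_pow]
  linear_combination h

theorem linL_pow_q : (linL W : K[X]) ^ Nat.card R =
    C (W⁄K).a₁ * X ^ Nat.card R + C (W⁄K).a₃ := by
  have e : ∀ c : R, C (algebraMap R K c) = algebraMap R K[X] c := fun c => rfl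
  show (C (algebraMap R K W.a₁) * X + C (algebraMap R K W.a₃)) ^ Nat.card R = _
  rw [pow_q_add (R := R), mul_pow, e, e, pow_q_algebraMap, pow_q_algebraMap]
  rfl

theorem cubF_pow_q : (cubF W : K[X]) ^ Nat.card R = (X ^ Nat.card R) ^ 3
    + C (W⁄K).a₂ * (X ^ Nat.card R) ^ 2 + C (W⁄K).a₄ * X ^ Nat.card R + C (W⁄K).a₆ := by
  have e : ∀ c : R, C (algebraMap R K c) = algebraMap R K[X] c := fun c => rfl
  show (X ^ 3 + C (algebraMap R K W.a₂) * X ^ 2 + C (algebraMap R K W.a₄) * X
    + C (algebraMap R K W.a₆)) ^ Nat.card R = _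
  rw [pow_q_add (R := R), pow_q_add (R := R), pow_q_add (R := R), mul_pow, mul_pow, e, e, e,
    pow_q_algebraMap, pow_q_algebraMap, pow_q_algebraMap, pow_right_comm, pow_right_comm X 2]
  rfl

variable (K)

/-- The first factor `y^q - ȳ`. -/
noncomputable def facN : (W⁄K).CoordinateRing :=
  yA W K ^ Nat.card R + yA W K + polyA W K (linL W)

/-- The second factor `y - ȳ^q`. -/
noncomputable def facN' : (W⁄K).CoordinateRing :=
  yA W K ^ Nat.card R + yA W K + polyA W K (linL W) ^ Nat.card R

variable {K}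

theorem natDegree_uv {u v : K[X]}
    (h : yA W K ^ (Nat.card R + 1) = polyA W K u + polyA W K v * yA W K) :
    u.natDegree ≤ 2 * Nat.card R ∧ (v * linL W).natDegree ≤ 2 * Nat.card R := by
  set q := Nat.card R with hq
  have h2 := two_le_q (R := R)
  rw [← hq] at h2
  have hn : (Algebra.norm K[X] (yA W K)).degree = 3 := by
    have := CoordinateRing.degree_norm_smul_basis (W' := W⁄K) (0 : K[X]) 1
    rw [zero_smul, zero_add, one_smul] at this
    rw [yA, this, degree_zero, degree_one]
    rfl
  have hpow : (Algebra.norm K[X] (yA W K ^ (q + 1))).degree = ((3 * (q + 1) : ℕ) : WithBot ℕ) := by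
    rw [map_pow, degree_pow, hn, nsmul_eq_mul, mul_comm 3 (q + 1)]
    push_cast
    rfl
  rw [h, ← polyA_basis, CoordinateRing.degree_norm_smul_basis] at hpow
  have hu : 2 • u.degree ≤ ((3 * (q + 1) : ℕ) : WithBot ℕ) := hpow ▸ le_max_left _ _
  have hv : 2 • v.degree + 3 ≤ ((3 * (q + 1) : ℕ) : WithBot ℕ) := hpow ▸ le_max_right _ _
  constructor
  · rcases eq_or_ne u 0 with rfl | hu0
    · simp
    rw [degree_eq_natDegree hu0, two_nsmul, ← Nat.cast_add, Nat.cast_le] at hu
    omega
  · rcases eq_or_ne v 0 with rfl | hv0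
    · simp
    rw [degree_eq_natDegree hv0, two_nsmul, ← Nat.cast_add, show (3 : WithBot ℕ) = ((3 : ℕ) : WithBot ℕ) from rfl, ← Nat.cast_add, Nat.cast_le] at hv
    have hl : (linL W : K[X]).natDegree ≤ 1 := natDegree_linear_le
    refine natDegree_mul_le.trans ?_
    omega

/-- The crucial polynomial `h = (y^q - ȳ)(y - ȳ^q)`. -/
theorem exists_hPoly :
    ∃ h T : K[X], T.natDegree ≤ 2 * Nat.card R ∧
      h = cubF W ^ Nat.card R + cubF W + T ∧ polyA W K h = facN W K * facN' W K := by
  obtain ⟨u, v, huv⟩ := exists_polyA_repr W (yA W K ^ (Nat.card R + 1))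
  obtain ⟨hu, hv⟩ := natDegree_uv W huv
  refine ⟨_, 2 * u - v * linL W, ?_, rfl, ?_⟩
  · refine (natDegree_sub_le _ _).trans (max_le ?_ hv)
    rw [two_mul]
    exact (natDegree_add_le _ _).trans (max_le hu hu)
  -- the conjugation
  let σ : (W⁄K).CoordinateRing →+* (W⁄K).CoordinateRing :=
    AdjoinRoot.lift (polyA W K).toRingHom (-yA W K - polyA W K (linL W)) <| by
      have h' := yA_sq W (K := K)
      simp only [WeierstrassCurve.Affine.polynomial, eval₂_sub, eval₂_add, eval₂_mul, eval₂_C,
        eval₂_X, eval₂_X_pow, AlgHom.toRingHom_eq_coe, RingHom.coe_coe]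
      rw [← linL, ← cubF]
      linear_combination h'
  have hσp : ∀ p : K[X], σ (polyA W K p) = polyA W K p := fun p => by
    show AdjoinRoot.lift _ _ _ (AdjoinRoot.mk _ (C p)) = _
    rw [AdjoinRoot.lift_mk, eval₂_C]
    rfl
  have hσy : σ (yA W K) = -yA W K - polyA W K (linL W) := by
    show AdjoinRoot.lift _ _ _ (AdjoinRoot.mk _ X) = _
    rw [AdjoinRoot.lift_mk, eval₂_X]
  have hconj := congrArg σ huv
  rw [map_pow, map_add, map_mul, hσp, hσp, hσy] at hconj
  have hpow : (-yA W K - polyA W K (linL W)) ^ (Nat.card R + 1)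
      = (yA W K + polyA W K (linL W)) *
        (yA W K ^ Nat.card R + polyA W K (linL W) ^ Nat.card R) := by
    rw [show -yA W K - polyA W K (linL W) = -(yA W K + polyA W K (linL W)) by ring, pow_succ,
      pow_q_neg (R := R), pow_q_add (R := R)]
    ring
  have hsq : (yA W K ^ Nat.card R) ^ 2 + polyA W K (linL W) ^ Nat.card R * yA W K ^ Nat.card R
      = polyA W K (cubF W) ^ Nat.card R := by
    rw [← yA_sq W, pow_q_add (R := R), mul_pow, pow_right_comm]
  simp only [map_add, map_sub, map_mul, map_pow, map_ofNat, facN, facN']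
  linear_combination (-1 : (W⁄K).CoordinateRing) * hsq - yA_sq W (K := K) - huv - hconj + hpow
    + (pow_succ (yA W K) (Nat.card R))

variable [W.IsElliptic]

/-- The number of points above an abscissa. -/
noncomputable def fibreCard (c : R) : ℕ := Nat.card {y : R // (W⁄R).Equation c y}

/-- The local behaviour of `h` at a rational abscissa. -/
theorem hPoly_local [IsAlgClosed K] {h : K[X]} (hh : polyA W K h = facN W K * facN' W K) (c : R) :
    fibreCard W c ≤ 2 ∧ (X - C (algebraMap R K c)) ^ (2 - fibreCard W c) ∣ h ∧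
      (fibreCard W c ≠ 0 → ¬ (X - C (algebraMap R K c)) ^ (3 - fibreCard W c) ∣ h) := by
  classical
  set q := Nat.card R with hq
  set a := algebraMap R K c with ha
  set ℓ : K := (linL W).eval a with hℓ
  set φ : K := (cubF W).eval a with hφ
  have hℓq : ℓ ^ q = ℓ := by
    have : ℓ = algebraMap R K (W.a₁ * c + W.a₃) := by
      simp [hℓ, ha, linL]
    rw [this, hq, pow_q_algebraMap]
  have hφq : φ ^ q = φ := by
    have : φ = algebraMap R K (c ^ 3 + W.a₂ * c ^ 2 + W.a₄ * c + W.a₆) := by
      simp [hφ, ha, cubF]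
    rw [this, hq, pow_q_algebraMap]
  have heq : ∀ y : R, (W⁄R).Equation c y ↔
      (algebraMap R K y) ^ 2 + ℓ * algebraMap R K y = φ := by
    intro y
    rw [← (W.toAffine).baseChange_equation (f := Algebra.ofId R K) (RingHom.injective _) c y,
      equation_iff_aeval (K := K) W, hℓ, hφ]
    simp [ha, coe_aeval_eq_eval]
  obtain ⟨y₁, hy₁⟩ : ∃ y : K, y ^ 2 + ℓ * y = φ := by
    obtain ⟨y, hy⟩ := IsAlgClosed.exists_root (X ^ 2 + C ℓ * X - C φ) (by
      rw [degree_eq_natDegree (fun h0 => by
        simpa [coeff_X_pow] using congrArg (fun q => Polynomial.coeff q 2) h0)]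
      intro h0
      have : (X ^ 2 + C ℓ * X - C φ).natDegree = 2 := by compute_degree!
      rw [this] at h0
      simp at h0)
    exact ⟨y, by simpa [sub_eq_zero] using hy⟩
  set y₂ := -y₁ - ℓ with hy₂
  have hroots : ∀ z : K, z ^ 2 + ℓ * z = φ → z = y₁ ∨ z = y₂ := by
    intro z hz
    have : (z - y₁) * (z - y₂) = 0 := by rw [hy₂]; linear_combination hz - hy₁
    rcases mul_eq_zero.1 this with h0 | h0 <;> [left; right] <;> exact sub_eq_zero.1 h0
  have hEq : ∀ y : K, y ^ 2 + ℓ * y = φ → (W⁄K).Equation a y := fun y hy =>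
    (equation_iff_aeval (K := K) W a y).2 (by simpa [coe_aeval_eq_eval] using hy)
  have hy₂' : y₂ ^ 2 + ℓ * y₂ = φ := by rw [hy₂]; linear_combination hy₁
  -- evaluation at the points above `a`
  have hθ : ∀ y (hy : y ^ 2 + ℓ * y = φ),
      evalPoint W K (hEq y hy) (facN W K) = y ^ q + y + ℓ ∧
      evalPoint W K (hEq y hy) (facN' W K) = y ^ q + y + ℓ ∧
      evalPoint W K (hEq y hy) (polyA W K h) = h.eval a := by
    intro y hy
    simp only [facN, facN', map_add, map_pow, yA, polyA_eq, evalPoint_mk_Y, evalPoint_mk_C,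
      coe_aeval_eq_eval, ← hℓ, ← hq, hℓq, and_self]
  have hheval : ∀ y (hy : y ^ 2 + ℓ * y = φ), h.eval a = (y ^ q + y + ℓ) ^ 2 := by
    intro y hy
    obtain ⟨e1, e2, e3⟩ := hθ y hy
    rw [← e3, hh, map_mul, e1, e2, sq]
  have hfr : ∀ y, y ^ 2 + ℓ * y = φ → (y ^ q) ^ 2 + ℓ * y ^ q = φ := by
    intro y hy
    have := congrArg (fun z => z ^ q) hy
    simp only [hq, pow_q_add (R := R), mul_pow] at this
    rw [← hq, hℓq, hφq, pow_right_comm] at this
    exact this
  by_cases h12 : y₁ = y₂
  · -- ramified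
    have hfix : y₁ ^ q = y₁ := by
      rcases hroots _ (hfr _ hy₁) with h0 | h0
      · exact h0
      · rw [h0, ← h12]
    obtain ⟨e, he⟩ := mem_range_of_pow_q_eq hfix
    have hcard : fibreCard W c = 1 := by
      rw [fibreCard, Nat.card_eq_one_iff_unique]
      refine ⟨⟨fun x y => Subtype.ext ?_⟩, ⟨⟨e, (heq e).2 (he ▸ hy₁)⟩⟩⟩
      apply RingHom.injective (algebraMap R K)
      rcases hroots _ ((heq _).1 x.2) with hx | hx <;>
        rcases hroots _ ((heq _).1 y.2) with hy | hy <;> simp [hx, hy, h12]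
    rw [hcard]
    have h2y : 2 * y₁ + ℓ = 0 := by rw [hy₂] at h12; linear_combination h12
    refine ⟨by norm_num, ?_, fun _ => ?_⟩
    · rw [show 2 - 1 = 1 from rfl, pow_one, dvd_iff_isRoot, IsRoot.def, hheval y₁ hy₁, hfix]
      linear_combination (2 * y₁ + ℓ) * h2y
    · -- exact order one
      have hns : (W⁄K).Nonsingular a y₁ :=
        (WeierstrassCurve.Affine.equation_iff_nonsingular (W := W⁄K)).1 (hEq y₁ hy₁)
      set α : K := 3 * a ^ 2 + 2 * (W⁄K).a₂ * a + (W⁄K).a₄ - (W⁄K).a₁ * y₁ with hα
      have hα0 : α ≠ 0 := by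
        intro h0
        have hL : (W⁄K).a₁ * a + (W⁄K).a₃ = ℓ := by simp [hℓ, linL]
        rcases ((W⁄K).nonsingular_iff _ _).1 hns |>.2 with hX | hY
        · exact hX (by linear_combination -h0)
        · exact hY (by linear_combination h2y + hL)
      -- work in the coordinate ring
      set A := (W⁄K).CoordinateRing
      set t : A := polyA W K (X - C a) with ht
      set k : K → A := fun s => polyA W K (C s) with hk
      set z : A := yA W K - k y₁ with hz
      have hLin : polyA W K (linL W) = k ℓ + k (W⁄K).a₁ * t := by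
        simp only [hk, ht, ← map_mul, ← map_add, hℓ, linL]
        congr 1
        simp [mul_sub]
        ring
      have hk2 : 2 * k y₁ + k ℓ = 0 := by
        simp only [hk]
        rw [show (2 : A) = polyA W K (C (2 : K)) by simp [map_ofNat], ← map_mul, ← map_add,
          ← C_mul, ← C_add, h2y, map_zero, map_zero]
      have hky : k y₁ ^ q = k y₁ := by
        simp only [hk, ← map_pow, hfix]
      have hkl : k ℓ ^ q = k ℓ := by
        simp only [hk, ← map_pow, hℓq]
      have hka : k (W⁄K).a₁ ^ q = k (W⁄K).a₁ := by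
        simp only [hk, ← map_pow, hq]
        rw [show (W⁄K).a₁ = algebraMap R K W.a₁ from rfl, pow_q_algebraMap]
      have hrel : z ^ 2 + k (W⁄K).a₁ * t * z
          = t * (k α + k (3 * a + (W⁄K).a₂) * t + t ^ 2) := by
        have h' := yA_sq W (K := K)
        have hc : polyA W K (cubF W) = k φ + t * (k (3 * a ^ 2 + 2 * (W⁄K).a₂ * a + (W⁄K).a₄)
            + k (3 * a + (W⁄K).a₂) * t + t ^ 2) := by
          simp only [hk, ht, ← map_pow, ← map_mul, ← map_add, hφ, cubF]
          congr 1
          simp [map_ofNat]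
          ring
        have hkα : k α = k (3 * a ^ 2 + 2 * (W⁄K).a₂ * a + (W⁄K).a₄)
            - k (W⁄K).a₁ * k y₁ := by
          simp only [hk, hα, map_sub, map_mul]
        have hkφ : k y₁ ^ 2 + k ℓ * k y₁ = k φ := by
          simp only [hk, ← map_pow, ← map_mul, ← map_add, hy₁]
        rw [hkα]
        rw [hLin, hc] at h'
        simp only [hz]
        linear_combination h' - hkφ - (yA W K - k y₁) * hk2
      obtain ⟨r, hr⟩ : t ∣ z ^ 2 := ⟨k α + k (3 * a + (W⁄K).a₂) * t + t ^ 2
        - k (W⁄K).a₁ * z, by linear_combination hrel⟩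
      have hN : facN W K = z ^ q + z + k (W⁄K).a₁ * t := by
        have hyz : yA W K ^ q = z ^ q + k y₁ := by
          rw [show yA W K = z + k y₁ by simp [hz], hq, pow_q_add (R := R), ← hq, hky]
        rw [facN, ← hq, hyz, hLin, show yA W K = z + k y₁ by simp [hz]]
        linear_combination hk2
      have hN' : facN' W K = z ^ q + z + k (W⁄K).a₁ * t ^ q := by
        have hyz : yA W K ^ q = z ^ q + k y₁ := by
          rw [show yA W K = z + k y₁ by simp [hz], hq, pow_q_add (R := R), ← hq, hky]
        rw [facN', ← hq, hyz, hLin, hq, pow_q_add (R := R), mul_pow, ← hq, hkl, hka,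
          show yA W K = z + k y₁ by simp [hz]]
        linear_combination hk2
      have hq2 := two_le_q (R := R)
      rw [← hq] at hq2
      have d1 : t ^ 2 ∣ t ^ q := pow_dvd_pow t hq2
      have d2 : t ^ 2 ∣ (z ^ q) ^ 2 := by
        rw [← pow_mul, mul_comm, pow_mul, hr, mul_pow]
        exact d1.mul_right _
      have d3 : t ^ 2 ∣ k (W⁄K).a₁ * t * z ^ q := by
        obtain ⟨r', hr'⟩ := pow_dvd_pow z hq2
        rw [hr', hr]
        exact ⟨k (W⁄K).a₁ * r * r', by ring⟩
      have d4 : t ^ 2 ∣ 2 * (z ^ q * z) := by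
        rcases q_eq_two_or (R := R) with ⟨-, h2⟩ | h3
        · rw [show (2 : A) = algebraMap R A 2 by simp [map_ofNat], h2, map_zero, zero_mul]
          exact dvd_zero _
        · rw [← hq] at h3
          obtain ⟨r', hr'⟩ : z ^ (2 * 2) ∣ z ^ (q + 1) := pow_dvd_pow z (by omega)
          rw [← pow_succ, hr', pow_mul, hr, mul_pow]
          exact ((dvd_mul_right _ _).mul_right _).mul_left _
      have key : t ^ 2 ∣ polyA W K h - k α * t := by
        have e : polyA W K h - k α * t = (z ^ q) ^ 2 + k (W⁄K).a₁ * t * z ^ q + 2 * (z ^ q * z)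
            + t ^ q * (k (W⁄K).a₁ * (z ^ q + z + k (W⁄K).a₁ * t))
            + t ^ 2 * (k (3 * a + (W⁄K).a₂) + t) := by
          rw [hh, hN, hN']
          linear_combination hrel
        rw [e]
        exact dvd_add (dvd_add (dvd_add (dvd_add d2 d3) d4) (d1.mul_right _)) (dvd_mul_right _ _)
      intro hdvd
      rw [show 3 - 1 = 2 from rfl] at hdvd
      have h1 : (X - C a) ^ 2 ∣ h - C α * (X - C a) := by
        apply dvd_of_polyA_dvd W
        rw [map_pow, map_sub (polyA W K) h, map_mul]
        exact key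
      have h2 := dvd_sub hdvd h1
      rw [sub_sub_cancel, sq] at h2
      have h3 : X - C a ∣ C α :=
        (mul_dvd_mul_iff_right (X_sub_C_ne_zero a)).1 h2
      rw [dvd_iff_isRoot, IsRoot.def, eval_C] at h3
      exact hα0 h3
  · rcases hroots _ (hfr _ hy₁) with hfix | hswap
    · -- two rational points
      have hfix₂ : y₂ ^ q = y₂ := by
        rw [hy₂, sub_eq_add_neg, hq, pow_q_add (R := R), pow_q_neg (R := R),
          pow_q_neg (R := R), ← hq, hfix, hℓq]
      obtain ⟨e₁, he₁⟩ := mem_range_of_pow_q_eq hfix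
      obtain ⟨e₂, he₂⟩ := mem_range_of_pow_q_eq hfix₂
      have hne : e₁ ≠ e₂ := fun h0 => h12 (by rw [← he₁, ← he₂, h0])
      have hcard : fibreCard W c = 2 := by
        rw [fibreCard, Nat.card_eq_two_iff]
        refine ⟨⟨e₁, (heq _).2 (he₁ ▸ hy₁)⟩, ⟨e₂, (heq _).2 (he₂ ▸ hy₂')⟩,
          fun h0 => hne (congrArg Subtype.val h0), ?_⟩
        refine Set.eq_univ_of_forall fun x => ?_
        simp only [Set.mem_insert_iff, Set.mem_singleton_iff, Subtype.ext_iff]
        rcases hroots _ ((heq _).1 x.2) with hx | hx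
        · exact Or.inl (RingHom.injective (algebraMap R K) (hx.trans he₁.symm))
        · exact Or.inr (RingHom.injective (algebraMap R K) (hx.trans he₂.symm))
      rw [hcard]
      refine ⟨le_rfl, by simp, fun _ => ?_⟩
      rw [show 3 - 2 = 1 from rfl, pow_one, dvd_iff_isRoot, IsRoot.def, hheval y₁ hy₁, hfix]
      refine pow_ne_zero 2 fun h0 => h12 ?_
      rw [hy₂]
      linear_combination h0
    · -- no rational point
      have hcard : fibreCard W c = 0 := by
        rw [fibreCard, Nat.card_eq_zero]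
        refine Or.inl ⟨fun x => ?_⟩
        have hx0 : (algebraMap R K x.1) ^ q = algebraMap R K x.1 := by rw [hq, pow_q_algebraMap]
        rcases hroots _ ((heq _).1 x.2) with hx | hx <;> rw [hx] at hx0
        · exact h12 (hx0.symm.trans hswap)
        · have h1 : y₂ ^ q = -(y₁ ^ q) - ℓ := by
            rw [hy₂, sub_eq_add_neg, hq, pow_q_add (R := R), pow_q_neg (R := R),
              pow_q_neg (R := R), ← hq, hℓq]
            ring
          rw [hswap, hx0] at h1
          refine h12 ?_
          have h2 : y₂ = -y₁ - ℓ := hy₂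
          linear_combination -h1 + h2
      rw [hcard]
      refine ⟨by norm_num, ?_, fun h0 => absurd rfl h0⟩
      have hdiv : ∀ x : (W⁄K).CoordinateRing,
          evalPoint W K (hEq y₁ hy₁) x = 0 → evalPoint W K (hEq y₂ hy₂') x = 0 →
          polyA W K (X - C a) ∣ x := by
        intro x h1 h2
        obtain ⟨u, v, rfl⟩ := exists_polyA_repr W x
        simp only [map_add, map_mul, yA, polyA_eq, evalPoint_mk_Y, evalPoint_mk_C,
          coe_aeval_eq_eval] at h1 h2
        have hv0 : v.eval a = 0 := by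
          have : v.eval a * (y₁ - y₂) = 0 := by linear_combination h1 - h2
          exact (mul_eq_zero.1 this).resolve_right (sub_ne_zero.2 h12)
        have hu0 : u.eval a = 0 := by rwa [hv0, zero_mul, add_zero] at h1
        exact dvd_add (map_dvd (polyA W K) (dvd_iff_isRoot.2 hu0))
          ((map_dvd (polyA W K) (dvd_iff_isRoot.2 hv0)).mul_right _)
      have h1 : y₁ ^ q + y₁ + ℓ = 0 := by rw [hswap, hy₂]; ring
      have h2 : y₂ ^ q + y₂ + ℓ = 0 := by
        rw [show y₂ ^ q = -(y₁ ^ q) - ℓ by
          rw [hy₂, sub_eq_add_neg, hq, pow_q_add (R := R), pow_q_neg (R := R),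
            pow_q_neg (R := R), ← hq, hℓq]
          ring, hswap]
        ring
      apply dvd_of_polyA_dvd W
      rw [map_pow, hh, show 2 - 0 = 1 + 1 from rfl, pow_add, pow_one]
      exact mul_dvd_mul (hdiv _ ((hθ y₁ hy₁).1.trans h1) ((hθ y₂ hy₂').1.trans h2))
        (hdiv _ ((hθ y₁ hy₁).2.1.trans h1) ((hθ y₂ hy₂').2.1.trans h2))


end Fermat.Agent.Weil
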