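/-
`deg (φ - 1) = #E(𝔽_q)`.
-/
import Fermat.Agent.Weil.PointCount
import Mathlib.Tactic.ComputeDegree

set_option autoImplicit false
set_option linter.unusedSectionVars false
set_option linter.style.haveILetI false

open Polynomial WeierstrassCurve.Affine
open scoped WeierstrassCurve.Affine

namespace Fermat.Agent.Weil

variable {R : Type*} [Field R] [Finite R] (W : WeierstrassCurve R) [W.IsElliptic]
variable {K : Type*} [Field K] [Algebra R K] [DecidableEq K] [DecidableEq (FF W K)]

/-- The Frobenius endomorphism on points with values in the function field. -/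
noncomputable def frobGen : FPt W K →+ FPt W K := Point.map (frobHom R (FF W K))

theorem natCard_point_eq [DecidableEq R] [Fintype R] :
    Nat.card W.toAffine.Point = (∑ c : R, fibreCard W c) + 1 := by
  classical
  haveI : Finite {xy : R × R // W.toAffine.Equation xy.1 xy.2} := inferInstance
  have e : Nat.card W.toAffine.Point =
      Nat.card (WithZero {xy : R × R // W.toAffine.Equation xy.1 xy.2}) :=
    Nat.card_congr W.toAffine.pointEquiv
  rw [e]
  show Nat.card (Option _) = _
  rw [Finite.card_option]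
  congr 1
  have e' : {xy : R × R // W.toAffine.Equation xy.1 xy.2} ≃
      Σ c : R, {y : R // (W⁄R).Equation c y} :=
    { toFun := fun p => ⟨p.1.1, p.1.2, by
        have := (W.toAffine.baseChange_equation (f := Algebra.ofId R R) (RingHom.injective _)
          p.1.1 p.1.2)
        simpa [WeierstrassCurve.Affine.baseChange, WeierstrassCurve.baseChange] using p.2⟩
      invFun := fun p => ⟨(p.1, p.2.1), by
        simpa [WeierstrassCurve.Affine.baseChange, WeierstrassCurve.baseChange] using p.2.2⟩
      left_inv := fun p => rfl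
      right_inv := fun p => rfl }
  rw [Nat.card_congr e', Nat.card_sigma]
  rfl

theorem algebraMap_polyA (p : K[X]) :
    algebraMap (W⁄K).CoordinateRing (FF W K) (polyA W K p) = evX W K p :=
  (evX_eq W p).symm

theorem exists_frob_sub_x [IsAlgClosed K] :
    ∃ num : K[X], num.natDegree = 2 * Nat.card R + 1 ∧
      (∀ c : R, fibreCard W c ≤ 2 ∧ (X - C (algebraMap R K c)) ^ (2 - fibreCard W c) ∣ num ∧
        (fibreCard W c ≠ 0 → ¬ (X - C (algebraMap R K c)) ^ (3 - fibreCard W c) ∣ num)) ∧
      ∃ x y h, frobGen W (gen W (K := K)) - gen W = Point.some x y h ∧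
        x * evX W K ((X ^ Nat.card R - X) ^ 2) = evX W K num := by
  set q := Nat.card R with hq
  have hq2 := two_le_q (R := R)
  rw [← hq] at hq2
  obtain ⟨h, T, hT, hhT, hh⟩ := exists_hPoly W (K := K)
  rw [← hq] at hT hhT
  set num : K[X] := h - (X ^ q + X + C (W⁄K).a₂) * (X ^ q - X) ^ 2 with hnum
  refine ⟨num, ?_, fun c => ?_, ?_⟩
  · -- the degree
    have e : num = X ^ (2 * q + 1) + (C (W⁄K).a₄ * X ^ q + X ^ (q + 2)
        + C (2 * (W⁄K).a₂) * X ^ (q + 1) + C (W⁄K).a₄ * X + C ((W⁄K).a₆ + (W⁄K).a₆) + T) := by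
      have h3 := cubF_pow_q W (K := K)
      rw [← hq] at h3
      rw [hnum, hhT, h3, cubF]
      simp only [C_mul, C_add, map_ofNat]
      ring
    set S := C (W⁄K).a₄ * X ^ q + X ^ (q + 2) + C (2 * (W⁄K).a₂) * X ^ (q + 1)
      + C (W⁄K).a₄ * X + C ((W⁄K).a₆ + (W⁄K).a₆) + T with hS
    have hSd : S.natDegree ≤ 2 * q := by
      rw [hS]
      refine (natDegree_add_le _ _).trans (max_le ?_ hT)
      refine (natDegree_add_le _ _).trans (max_le ?_ ?_)
      · refine (natDegree_add_le _ _).trans (max_le ?_ ?_)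
        · refine (natDegree_add_le _ _).trans (max_le ?_ ?_)
          · refine (natDegree_add_le _ _).trans (max_le ?_ ?_)
            · exact (natDegree_C_mul_X_pow_le _ _).trans (by omega)
            · rw [natDegree_X_pow]; omega
          · exact (natDegree_C_mul_X_pow_le _ _).trans (by omega)
        · exact (natDegree_C_mul_le _ _).trans (natDegree_X_le.trans (by omega))
      · rw [natDegree_C]; omega
    rw [e, natDegree_add_eq_left_of_natDegree_lt (by rw [natDegree_X_pow]; omega),
      natDegree_X_pow]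
  · -- local behaviour
    obtain ⟨h1, h2, h3⟩ := hPoly_local W hh c
    haveI := Fintype.ofFinite R
    have hd : (X - C (algebraMap R K c)) ^ 2 ∣
        (X ^ q + X + C (W⁄K).a₂) * (X ^ q - X) ^ 2 := by
      refine Dvd.dvd.mul_left (pow_dvd_pow_of_dvd ?_ 2) _
      rw [hq, prod_X_sub_eq (R := R) K]
      exact Finset.dvd_prod_of_mem _ (Finset.mem_univ c)
    refine ⟨h1, dvd_sub h2 ((pow_dvd_pow _ (Nat.sub_le _ _)).trans hd), fun h0 hdvd => h3 h0 ?_⟩
    have : h = num + (X ^ q + X + C (W⁄K).a₂) * (X ^ q - X) ^ 2 := by rw [hnum]; ring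
    rw [this]
    exact dvd_add hdvd ((pow_dvd_pow _ (by omega)).trans hd)
  · -- the abscissa
    have hne : gx W K ^ q ≠ gx W K := by
      intro h0
      have h1 : evX W K (X ^ q) = evX W K X := by rw [map_pow, evX_X, h0]
      have h2 := congrArg natDegree (evX_injective W h1)
      rw [natDegree_X_pow, natDegree_X] at h2
      omega
    have hf : ∀ z : FF W K, frobHom R (FF W K) z = z ^ q := fun z => frobHom_apply z
    rw [frobGen, gen, Point.map_some, sub_eq_add_neg, Point.neg_some,
      Point.add_of_X_ne (by rw [hf]; exact hne)]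
    refine ⟨_, _, _, rfl, ?_⟩
    rw [hf, hf, addX, slope_of_X_ne hne]
    have hh' := congrArg (algebraMap (W⁄K).CoordinateRing (FF W K)) hh
    simp only [facN, facN', map_mul, map_add, map_pow, algebraMap_polyA, ← hq] at hh'
    rw [show algebraMap (W⁄K).CoordinateRing (FF W K) (yA W K) = gy W K from rfl, ← map_pow,
      linL_pow_q] at hh'
    have hL : evX W K (linL W) = (W⁄(FF W K)).a₁ * gx W K + (W⁄(FF W K)).a₃ := aeval_linL W _
    obtain ⟨h1, h2, h3, -, -⟩ := coeff_tower W (K := K) (L := FF W K)
    have hC : ∀ s : K, evX W K (C s) = algebraMap K (FF W K) s := fun s => aeval_C _ _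
    simp only [map_add, map_mul, map_pow, evX_X, hL, hC, ← hq, ← h1, ← h3] at hh'
    rw [hnum]
    simp only [map_sub, map_mul, map_add, map_pow, evX_X, hC, ← h2, hh']
    have hd : gx W K ^ q - gx W K ≠ 0 := sub_ne_zero.2 hne
    rw [negY]
    field_simp
    ring

theorem deg_frob_sub [IsAlgClosed K] :
    deg W (frobGen W (gen W (K := K)) - gen W) = Nat.card W.toAffine.Point := by
  classical
  haveI := Fintype.ofFinite R
  obtain ⟨num, hnum, hloc, x, y, h, hP, hx⟩ := exists_frob_sub_x W (K := K)
  set q := Nat.card R with hq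
  let lf : R → K[X] := fun c => X - C (algebraMap R K c)
  set g : K[X] := ∏ c : R, lf c ^ (2 - fibreCard W c) with hg
  set b : K[X] := ∏ c : R, lf c ^ fibreCard W c with hb
  have hden : (X ^ q - X : K[X]) ^ 2 = g * b := by
    rw [hq, prod_X_sub_eq (R := R) K, hg, hb, ← Finset.prod_mul_distrib, ← Finset.prod_pow]
    refine Finset.prod_congr rfl fun c _ => ?_
    rw [← pow_add, Nat.sub_add_cancel (hloc c).1]
  have hgnum : g ∣ num := by
    refine Finset.prod_dvd_of_coprime (fun c _ d _ hcd => ?_) fun c _ => (hloc c).2.1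
    exact (pairwise_coprime_X_sub_C (RingHom.injective (algebraMap R K)) hcd).pow
  obtain ⟨a, ha⟩ := hgnum
  have hlf : ∀ c, lf c ≠ 0 := fun c => X_sub_C_ne_zero _
  have hg0 : g ≠ 0 := Finset.prod_ne_zero_iff.2 fun c _ => pow_ne_zero _ (hlf c)
  have hnum0 : num ≠ 0 := fun h0 => by simp [h0] at hnum
  have ha0 : a ≠ 0 := fun h0 => hnum0 (by rw [ha, h0, mul_zero])
  have hcop : IsCoprime a b := by
    refine IsCoprime.prod_right fun c _ => ?_
    by_cases h0 : fibreCard W c = 0
    · rw [h0, pow_zero]
      exact isCoprime_one_right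
    refine IsCoprime.pow_right (((irreducible_X_sub_C _).coprime_iff_not_dvd).2 ?_).symm
    intro hdvd
    refine (hloc c).2.2 h0 ?_
    have hgc : lf c ^ (2 - fibreCard W c) ∣ g := Finset.dvd_prod_of_mem _ (Finset.mem_univ c)
    have := mul_dvd_mul hgc hdvd
    rw [← ha, ← pow_succ] at this
    rwa [show 3 - fibreCard W c = 2 - fibreCard W c + 1 by have := (hloc c).1; omega]
  have hz : x * evX W K b = evX W K a := by
    apply mul_left_cancel₀ ((map_ne_zero_iff _ (evX_injective W)).2 hg0)
    rw [← map_mul (evX W K) g a, ← ha, ← hx, hden, map_mul]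
    ring
  rw [hP, deg_eq_of_rep W (rep_some W h hcop hz), natCard_point_eq]
  have hgd : g.natDegree = ∑ c : R, (2 - fibreCard W c) := by
    rw [hg, natDegree_prod _ _ fun c _ => pow_ne_zero _ (hlf c)]
    exact Finset.sum_congr rfl fun c _ => by rw [natDegree_pow, natDegree_X_sub_C, mul_one]
  have hbd : b.natDegree = ∑ c : R, fibreCard W c := by
    rw [hb, natDegree_prod _ _ fun c _ => pow_ne_zero _ (hlf c)]
    exact Finset.sum_congr rfl fun c _ => by rw [natDegree_pow, natDegree_X_sub_C, mul_one]
  have hsum : (∑ c : R, (2 - fibreCard W c)) + ∑ c : R, fibreCard W c = 2 * q := by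
    rw [← Finset.sum_add_distrib,
      Finset.sum_congr rfl fun c _ => Nat.sub_add_cancel (hloc c).1, Finset.sum_const,
      Finset.card_univ, hq, Nat.card_eq_fintype_card, smul_eq_mul, mul_comm]
  have had : g.natDegree + a.natDegree = 2 * q + 1 := by
    rw [← natDegree_mul hg0 ha0, ← ha, hnum]
  simp only [pairDeg, Matrix.cons_val_zero, Matrix.cons_val_one, Matrix.cons_val_fin_one]
  omega

end Fermat.Agent.Weil
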