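/-
The Frobenius endomorphism as an endomorphism with trace `q + 1 - #E(𝔽_q)` and degree `q`.
-/
import Fermat.Agent.Weil.Endo
import Fermat.Agent.Weil.PointDegree
import Fermat.Prelude.Def_FLTPrelim_Modularity
import Fermat.Prelude.Def_EllipticCurve_FrobeniusTrace

set_option autoImplicit false
set_option linter.unusedSectionVars false

open Polynomial WeierstrassCurve.Affine
open scoped WeierstrassCurve.Affine

namespace Fermat.Agent.Weil

variable {R : Type*} [Field R] [Finite R] (W : WeierstrassCurve R) [W.IsElliptic]
variable {K : Type*} [Field K] [Algebra R K] [DecidableEq K] [DecidableEq (FF W K)]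

theorem frobGen_comm (f : FF W K →ₐ[K] FF W K) (P : FPt W K) :
    mapE W f (frobGen W P) = frobGen W (mapE W f P) := by
  rcases P with _ | ⟨u, v, h⟩
  · rfl
  · simp only [mapE, frobGen, Point.map_some, Point.some.injEq]
    simp [frobHom_apply]

theorem frobGen_const (T : (W⁄K).Point) :
    frobGen W (const W T) = const W (Point.map (frobHom R K) T) := by
  rcases T with _ | ⟨a, b, h⟩
  · rfl
  · simp only [frobGen, const, Point.map_some, Point.some.injEq]
    simp [frobHom_apply]

variable (K) in
/-- The Frobenius endomorphism. -/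
noncomputable def frobEndo : Endo W K :=
  Endo.ofHom (frobGen W) (Point.map (frobHom R K)) (frobGen_comm W) (frobGen_const W)

variable [IsAlgClosed K]

theorem frobEndo_degree : (frobEndo W K).degree = Nat.card R := by
  have h : (frobEndo W K).act X (gen W) = frobGen W (gen W) := Endo.act_X _ _
  show ((deg W ((frobEndo W K).act X (gen W)) : ℕ) : ℤ) = _
  rw [h, gen, frobGen, Point.map_some, Nat.cast_inj,
    deg_eq_of_rep W (rep_some W _ (a := X ^ Nat.card R) (b := 1) isCoprime_one_right
      (by rw [map_one, mul_one, map_pow, evX_X, frobHom_apply]))]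
  simp [pairDeg]

theorem frobEndo_trace : (frobEndo W K).trace = W.traceOfFrobenius := by
  have h := (frobEndo W K).degQuad.map_one_sub X
  have hd : (frobEndo W K).degQuad.toFun X = Nat.card R := frobEndo_degree W
  have he : (frobEndo W K).degQuad.toFun (1 - X) = Nat.card W.toAffine.Point := by
    show ((deg W ((frobEndo W K).act (1 - X) (gen W)) : ℕ) : ℤ) = _
    have h1 : (frobEndo W K).act (1 - X) (gen W) = -(frobGen W (gen W) - gen W) := by
      rw [Endo.act, map_sub, map_one, LinearMap.sub_apply, Module.End.one_apply, aeval_X, neg_sub]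
      rfl
    rw [h1, deg_neg, deg_frob_sub]
  rw [hd, he] at h
  rw [Endo.trace, WeierstrassCurve.traceOfFrobenius, WeierstrassCurve.card]
  linarith

theorem frobEndo_onConst {σ : K ≃ₐ[R] K} (hσ : ∀ x : K, σ x = x ^ Nat.card R) (P : (W⁄K).Point) :
    (frobEndo W K).onConst P = σ • P := by
  show Point.map (frobHom R K) P = Point.map σ.toAlgHom P
  rw [show frobHom R K = σ.toAlgHom from
    AlgHom.ext fun x => (frobHom_apply x).trans (hσ x).symm]

end Fermat.Agent.Weil
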