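/-
An endomorphism killing all of `E[n]` has degree divisible by `n²`.
-/
import Fermat.Agent.Weil.Endo
import Mathlib.FieldTheory.Fixed
import Mathlib.FieldTheory.Galois.Basic
import Mathlib.FieldTheory.Relrank
import Mathlib.FieldTheory.RatFunc.IntermediateField
import Mathlib.Data.Nat.Factorization.Basic

set_option autoImplicit false
set_option linter.unusedSectionVars false
set_option linter.style.haveILetI false

open Polynomial WeierstrassCurve.Affine IntermediateField
open scoped WeierstrassCurve.Affine

namespace Fermat.Agent.Weil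

variable {R : Type*} [Field R] (W : WeierstrassCurve R) [W.IsElliptic]
variable {K : Type*} [Field K] [Algebra R K] [DecidableEq K] [DecidableEq (FF W K)]

variable (K) in
/-- The rational functions in `gx`. -/
noncomputable def ratHom : RatFunc K →ₐ[K] FF W K :=
  RatFunc.liftAlgHom (evX W K) fun p hp =>
    mem_nonZeroDivisors_of_ne_zero ((map_ne_zero_iff _ (evX_injective W)).2
      (nonZeroDivisors.ne_zero hp))

theorem ratHom_algebraMap (p : K[X]) :
    ratHom W K (algebraMap K[X] (RatFunc K) p) = evX W K p := by
  have := RatFunc.liftAlgHom_apply_div (L := FF W K) (φ := evX W K) (fun q hq =>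
    mem_nonZeroDivisors_of_ne_zero ((map_ne_zero_iff _ (evX_injective W)).2
      (nonZeroDivisors.ne_zero hq))) p 1
  simpa [ratHom] using this

theorem finrank_ratHom_fieldRange :
    Module.finrank (ratHom W K).fieldRange (FF W K) = 2 := by
  set M := (ratHom W K).fieldRange
  have hev : ∀ p : K[X], evX W K p ∈ M := fun p => ⟨_, ratHom_algebraMap W p⟩
  have hli : LinearIndependent M ![(1 : FF W K), gy W K] := by
    rw [LinearIndependent.pair_iff]
    intro s t hst
    obtain ⟨r, hr⟩ := s.2
    obtain ⟨r', hr'⟩ := t.2
    change ratHom W K r = s at hr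
    change ratHom W K r' = t at hr'
    rw [IntermediateField.smul_def, IntermediateField.smul_def, smul_eq_mul, smul_eq_mul, mul_one,
      ← hr, ← hr'] at hst
    obtain ⟨a, b, hb, rfl⟩ := IsFractionRing.div_surjective (A := K[X]) r
    obtain ⟨a', b', hb', rfl⟩ := IsFractionRing.div_surjective (A := K[X]) r'
    have hb0 := nonZeroDivisors.ne_zero hb
    have hb0' := nonZeroDivisors.ne_zero hb'
    simp only [map_div₀, ratHom_algebraMap] at hst hr hr'
    have h1 : evX W K b ≠ 0 := (map_ne_zero_iff _ (evX_injective W)).2 hb0
    have h2 : evX W K b' ≠ 0 := (map_ne_zero_iff _ (evX_injective W)).2 hb0'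
    have : evX W K (a * b') + evX W K (a' * b) * gy W K = 0 := by
      rw [map_mul, map_mul]
      field_simp at hst
      linear_combination hst
    obtain ⟨e1, e2⟩ := evX_add_eq_zero W this
    constructor
    · apply Subtype.ext
      rw [← hr, (mul_eq_zero.1 e1).resolve_right hb0']
      simp
    · apply Subtype.ext
      rw [← hr', (mul_eq_zero.1 e2).resolve_right hb0]
      simp
  have hsp : ⊤ ≤ Submodule.span M (Set.range ![(1 : FF W K), gy W K]) := by
    rintro z -
    obtain ⟨p, q, r, hr, hz⟩ := exists_repr W z
    have hr' : evX W K r ≠ 0 := (map_ne_zero_iff _ (evX_injective W)).2 hr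
    have hz' : z = (⟨evX W K p / evX W K r, div_mem (hev p) (hev r)⟩ : M) • (1 : FF W K)
        + (⟨evX W K q / evX W K r, div_mem (hev q) (hev r)⟩ : M) • gy W K := by
      simp only [IntermediateField.smul_def, smul_eq_mul]
      field_simp
      linear_combination hz
    rw [hz']
    exact add_mem (Submodule.smul_mem _ _ (Submodule.subset_span ⟨0, rfl⟩))
      (Submodule.smul_mem _ _ (Submodule.subset_span ⟨1, rfl⟩))
  exact Module.finrank_eq_card_basis (Module.Basis.mk hli hsp) |>.trans (Fintype.card_fin 2)

variable [IsAlgClosed K]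

/-- `[F : K(x(P))] = 2 deg P`. -/
theorem finrank_adjoin_x {u v : FF W K} {h : (W⁄(FF W K)).Nonsingular u v}
    (hP : (Point.some u v h : FPt W K) ∈ negPts W) :
    Module.finrank K⟮u⟯ (FF W K) = 2 * deg W (Point.some u v h : FPt W K) := by
  have h0 := (mem_negPts W).1 hP
  obtain ⟨h', e⟩ := mapE_some W (invol W) h
  rw [e, Point.neg_some] at h0
  have hu : invol W u = u := (Point.some.inj h0).1
  obtain ⟨a, b, hab, hb, hz⟩ := exists_coprime_of_invol_fixed W hu
  rw [deg_eq_of_rep W (rep_some W h hab hz)]
  set r : RatFunc K := algebraMap _ _ a / algebraMap _ _ b with hr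
  have hru : ratHom W K r = u := by
    rw [hr, map_div₀, ratHom_algebraMap, ratHom_algebraMap,
      div_eq_iff ((map_ne_zero_iff _ (evX_injective W)).2 hb), hz]
  have hmap : K⟮u⟯ = (K⟮r⟯).map (ratHom W K) := by
    rw [adjoin_map, Set.image_singleton, hru]
  have hle : K⟮u⟯ ≤ (ratHom W K).fieldRange := adjoin_simple_le_iff.2 ⟨r, hru⟩
  rw [← relfinrank_mul_finrank_top hle, finrank_ratHom_fieldRange, mul_comm]
  congr 1
  rw [hmap, AlgHom.fieldRange_eq_map, relfinrank_map_map, relfinrank_top_right,
    RatFunc.finrank_eq_max_natDegree]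
  -- numerator and denominator of a reduced fraction
  have hUV := (isPrimOfDeg_of_isCoprime (RatFunc.isCoprime_num_denom r)).deg_eq
    (isPrimOfDeg_of_isCoprime hab) fun i j => by
    have he : r.num * b = a * r.denom := RatFunc.algebraMap_injective K (by
      rw [map_mul, map_mul]
      have hden : algebraMap K[X] (RatFunc K) r.denom ≠ 0 :=
        RatFunc.algebraMap_ne_zero r.denom_ne_zero
      have hb' : algebraMap K[X] (RatFunc K) b ≠ 0 := RatFunc.algebraMap_ne_zero hb
      rw [← div_eq_div_iff hden hb', RatFunc.num_div_denom, hr])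
    fin_cases i <;> fin_cases j <;> simp <;>
      first | ring1 | linear_combination he | linear_combination -he
  simpa [pairDeg] using hUV

/-- The translation by a constant point. -/
noncomputable def translation (T : (W⁄K).Point) : FF W K →ₐ[K] FF W K :=
  subst W (gen W + const W T) fun h => not_isConst_gen W (K := K) <| by
    have := add_mem h (neg_mem (⟨T, rfl⟩ : const W T ∈ (const W (K := K)).range))
    rwa [add_neg_cancel_right] at this

theorem mapE_translation_gen (T : (W⁄K).Point) :
    mapE W (translation W T) (gen W) = gen W + const W T :=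
  mapE_subst_gen W _ _

theorem translation_add (S T : (W⁄K).Point) :
    (translation W S).comp (translation W T) = translation W (S + T) := by
  apply mapE_injective_gen
  rw [mapE_comp, mapE_translation_gen, map_add, mapE_translation_gen, mapE_const,
    mapE_translation_gen, map_add, add_assoc]

theorem translation_zero : translation W (0 : (W⁄K).Point) = AlgHom.id K (FF W K) := by
  apply mapE_injective_gen
  rw [mapE_translation_gen, map_zero, add_zero, mapE_id]

/-- Translations as automorphisms. -/
noncomputable def translationHom :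
    Multiplicative (W⁄K).Point →* (FF W K ≃ₐ[K] FF W K) where
  toFun T := AlgEquiv.ofAlgHom (translation W T.toAdd) (translation W (-T.toAdd))
    (by rw [translation_add, add_neg_cancel, translation_zero])
    (by rw [translation_add, neg_add_cancel, translation_zero])
  map_one' := AlgEquiv.ext fun z => by
    simp [translation_zero]
  map_mul' S T := AlgEquiv.ext fun z => by
    show translation W (S * T).toAdd z = _
    rw [toAdd_mul, ← translation_add]
    rfl

theorem translationHom_injective : Function.Injective (translationHom W (K := K)) := by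
  intro S T h
  have h' : translation W S.toAdd = translation W T.toAdd :=
    AlgHom.ext fun z => DFunLike.congr_fun h z
  have := congrArg (fun f => mapE W f (gen W)) h'
  simp only [mapE_translation_gen, add_right_inj] at this
  exact Multiplicative.toAdd.injective (Point.map_injective _ this)

namespace Endo

variable {W}
variable (Φ : Endo W K)

theorem natCard_dvd_two_mul_deg (f : ℤ[X]) (G : AddSubgroup (W⁄K).Point) [Finite G]
    (hG : ∀ T ∈ G, Φ.actC f T = 0) :
    Nat.card G ∣ 2 * deg W (Φ.act f (gen W)) := by
  by_cases hc : IsConst W (Φ.act f (gen W))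
  · rw [(deg_eq_zero_iff W (Φ.act_gen_mem f)).2 hc, mul_zero]
    exact dvd_zero _
  obtain ⟨u, v, h, hP, -⟩ := exists_transcendental_of_not_isConst W hc
  have hmem := Φ.act_gen_mem f
  rw [hP] at hmem
  rw [hP, ← finrank_adjoin_x W hmem]
  haveI : Finite G.toSubgroup := ‹Finite G›
  set H : Subgroup (FF W K ≃ₐ[K] FF W K) := G.toSubgroup.map (translationHom W) with hH
  have hcard : Nat.card H = Nat.card G :=
    (Nat.card_congr (G.toSubgroup.equivMapOfInjective _
      (translationHom_injective W)).toEquiv).symm
  haveI : Finite H := Finite.of_equiv _ (G.toSubgroup.equivMapOfInjective _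
      (translationHom_injective W)).toEquiv
  have hle : K⟮u⟯ ≤ fixedField H := adjoin_simple_le_iff.2 fun ⟨g, hg⟩ => by
    obtain ⟨T, hT, rfl⟩ := hg
    show translation W T.toAdd u = u
    have h1 := Φ.mapE_act (translation W T.toAdd) f (gen W)
    rw [mapE_translation_gen, map_add, Φ.act_const, hG T.toAdd hT, map_zero, add_zero, hP] at h1
    obtain ⟨h', e⟩ := mapE_some W (translation W T.toAdd) h
    rw [e] at h1
    exact (Point.some.inj h1).1
  haveI := Fintype.ofFinite H
  have hfix : Module.finrank (fixedField H) (FF W K) = Nat.card H := by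
    rw [Nat.card_eq_fintype_card]
    exact FixedPoints.finrank_eq_card H (FF W K)
  rw [← relfinrank_mul_finrank_top hle, hfix, hcard]
  exact dvd_mul_left _ _

theorem actC_mul (f g : ℤ[X]) (T : (W⁄K).Point) :
    Φ.actC (f * g) T = Φ.actC f (Φ.actC g T) := by
  rw [actC, map_mul]
  rfl

/-- If `f(Φ)` kills `E[p^m]` (of order `p^(2m)`), then `p^(2m)` divides its degree. -/
theorem pow_dvd_deg {p : ℕ} (hp : p.Prime) (m : ℕ) (f : ℤ[X])
    (hf : ∀ T : (W⁄K).Point, (p ^ m) • T = 0 → Φ.actC f T = 0)
    (G : AddSubgroup (W⁄K).Point) [Finite G]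
    (hG : ∀ T, T ∈ G ↔ (p ^ m * p ^ m) • T = 0) (hcard : Nat.card G = (p ^ m * p ^ m) ^ 2) :
    p ^ m * p ^ m ∣ deg W (Φ.act f (gen W)) := by
  have hkill : ∀ T ∈ G, Φ.actC (f * f) T = 0 := by
    intro T hT
    rw [actC_mul]
    apply hf
    rw [← map_nsmul]
    exact hf _ (by rw [← mul_nsmul']; exact (hG T).1 hT)
  have h := Φ.natCard_dvd_two_mul_deg (f * f) G hkill
  rw [hcard, Φ.deg_act_mul] at h
  set d := deg W (Φ.act f (gen W))
  rcases eq_or_ne d 0 with hd | hd
  · rw [hd]; exact dvd_zero _
  rw [← pow_add] at h ⊢
  rw [← pow_mul, hp.pow_dvd_iff_le_factorization (by simp [hd]), Nat.factorization_mul two_ne_zero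
    (by simp [hd]), Nat.factorization_mul hd hd, Finsupp.add_apply, Finsupp.add_apply] at h
  rw [hp.pow_dvd_iff_le_factorization hd]
  have h2 : Nat.factorization 2 p ≤ 1 := by
    rw [Nat.prime_two.factorization, Finsupp.single_apply]
    split <;> simp
  omega

end Endo

end Fermat.Agent.Weil
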