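/-
The Frobenius endomorphism of an elliptic curve over a finite field, acting on the points over
an algebraically closed field: `φ² - a φ + q = 0`, the Hasse bound, and the characteristic
polynomial on prime power torsion.
-/
import Fermat.Agent.Weil.FrobeniusEndo
import Fermat.Agent.Weil.KernelDegree
import Fermat.Agent.EC.Torsion
import Fermat.Prelude.Def_FLTPrelim_Modularity
import Fermat.Prelude.Def_EllipticCurve_FrobeniusTrace
import Mathlib.LinearAlgebra.Charpoly.Basic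
import Mathlib.LinearAlgebra.Determinant
import Mathlib.LinearAlgebra.Matrix.Charpoly.LinearMap

set_option autoImplicit false
set_option linter.unusedSectionVars false
set_option linter.style.haveILetI false

open Polynomial WeierstrassCurve.Affine
open scoped WeierstrassCurve.Affine

namespace Fermat.Agent.Weil

variable {k : Type*} [Field k] [Finite k] (W : WeierstrassCurve k) [W.IsElliptic]
  {K : Type*} [Field K] [Algebra k K] [IsAlgClosed K] [DecidableEq K]

omit [IsAlgClosed K] in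
/-- Hasse: `a² ≤ 4 q`. -/
theorem traceOfFrobenius_sq_le : W.traceOfFrobenius ^ 2 ≤ 4 * (Nat.card k : ℤ) := by
  classical
  have h := (frobEndo W (AlgebraicClosure k)).trace_sq_le
  rwa [frobEndo_trace, frobEndo_degree] at h

/-- Polynomials in Frobenius act through `σ`. -/
theorem actC_apply [DecidableEq (FF W K)] (σ : K ≃ₐ[k] K) (hσ : ∀ x : K, σ x = x ^ Nat.card k)
    (r c : ℤ) (P : (W⁄K).Point) :
    (frobEndo W K).actC (C r * X + C c) P = r • (σ • P) + c • P := by
  rw [Endo.actC, map_add, map_mul, aeval_X, aeval_C, aeval_C, LinearMap.add_apply,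
    Module.End.mul_apply, Module.algebraMap_end_apply, Module.algebraMap_end_apply,
    ← frobEndo_onConst W hσ]
  rfl

/-- The degree of `φ - c`. -/
theorem deg_act_linear [DecidableEq (FF W K)] (c : ℤ) :
    (deg W ((frobEndo W K).act (C 1 * X + C (-c)) (gen W)) : ℤ)
      = c ^ 2 - W.traceOfFrobenius * c + (Nat.card k : ℤ) := by
  show (frobEndo W K).degQuad.toFun (C 1 * X + C (-c)) = _
  rw [map_one, one_mul, show C (-c) = ((-c : ℤ) : ℤ[X]) * 1 by simp, MulQuad.map_add,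
    MulQuad.map_intCast_mul, MulQuad.polar_intCast_mul, MulQuad.map_one,
    MulQuad.polar_comm, show (frobEndo W K).degQuad.polar 1 X = (frobEndo W K).trace from rfl,
    show (frobEndo W K).degQuad.toFun X = (frobEndo W K).degree from rfl,
    frobEndo_trace, frobEndo_degree]
  ring

/-- `φ² - a φ + q = 0` on all points over an algebraically closed field. -/
theorem frobenius_sq_sub_trace_add (σ : K ≃ₐ[k] K) (hσ : ∀ x : K, σ x = x ^ Nat.card k)
    (P : (W⁄K).Point) :
    σ • σ • P - W.traceOfFrobenius • (σ • P) + (Nat.card k : ℤ) • P = 0 := by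
  classical
  have h := (frobEndo W K).actC_charPoly P
  rw [Endo.charPoly, Endo.actC, map_add, map_sub, map_mul, map_mul, aeval_X,
    map_intCast, map_intCast, LinearMap.add_apply, LinearMap.sub_apply, Module.End.mul_apply,
    Module.End.mul_apply, Module.End.intCast_apply, Module.End.intCast_apply, frobEndo_trace,
    frobEndo_degree] at h
  rwa [← frobEndo_onConst W hσ, ← frobEndo_onConst W hσ]

theorem dvd_of_sq_dvd_mul {p : ℕ} (hp : p.Prime) (m : ℕ) {n : ℕ} (hn : n = p ^ m) {u x : ℤ}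
    (h : (n : ℤ) * n ∣ u * x) (hx : ¬ (n : ℤ) ∣ x) : (n : ℤ) ∣ u := by
  subst hn
  by_contra hu
  rw [Int.natCast_dvd] at hx hu
  rw [← Nat.cast_mul, Int.natCast_dvd, Int.natAbs_mul] at h
  have hu0 : u.natAbs ≠ 0 := fun h0 => hu (h0 ▸ dvd_zero _)
  have hx0 : x.natAbs ≠ 0 := fun h0 => hx (h0 ▸ dvd_zero _)
  rw [hp.pow_dvd_iff_le_factorization hu0] at hu
  rw [hp.pow_dvd_iff_le_factorization hx0] at hx
  rw [← pow_add, hp.pow_dvd_iff_le_factorization (mul_ne_zero hu0 hx0),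
    Nat.factorization_mul hu0 hx0, Finsupp.add_apply] at h
  omega

theorem frobenius_matrix_aux {p : ℕ} (hp : p.Prime) (hpk : (p : k) ≠ 0) (m n : ℕ)
    (hn : n = p ^ m)
    (σ : K ≃ₐ[k] K) (hσ : ∀ x : K, σ x = x ^ Nat.card k)
    (b : Module.Basis (Fin 2) (ZMod n)
      (Submodule.torsionBy ℤ (W⁄K).Point (n : ℕ))) :
    (LinearMap.toMatrix b b (Point.galoisRepModuleEnd k W n σ)).trace
        = (W.traceOfFrobenius : ZMod n) ∧
      (LinearMap.toMatrix b b (Point.galoisRepModuleEnd k W n σ)).det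
        = (Nat.card k : ZMod n) := by
  classical
  haveI : NeZero n := ⟨hn ▸ pow_ne_zero m hp.ne_zero⟩
  have hnK : ((n * n : ℕ) : K) ≠ 0 := by
    rw [Nat.cast_mul, ← map_natCast (algebraMap k K) n, hn, Nat.cast_pow]
    exact mul_ne_zero ((_root_.map_ne_zero _).2 (pow_ne_zero _ hpk))
      ((_root_.map_ne_zero _).2 (pow_ne_zero _ hpk))
  have hsurj : ∀ Q : (W⁄K).Point, ∃ P : (W⁄K).Point, (n : ℤ) • P = Q :=
    EC.zsmul_surjective (W := W⁄K) (Nat.cast_ne_zero.2 (NeZero.ne n))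
  choose B hB using fun i => hsurj (b i : (W⁄K).Point)
  -- integer coordinates at level `n`
  have hcomb : ∀ y : Submodule.torsionBy ℤ (W⁄K).Point (n : ℕ), ∃ c₀ c₁ : ℤ,
      (y : (W⁄K).Point) = c₀ • (b 0 : (W⁄K).Point) + c₁ • (b 1 : (W⁄K).Point) := by
    intro y
    obtain ⟨c₀, hc₀⟩ := ZMod.intCast_surjective (b.repr y 0)
    obtain ⟨c₁, hc₁⟩ := ZMod.intCast_surjective (b.repr y 1)
    refine ⟨c₀, c₁, ?_⟩
    have h := b.sum_repr y
    rw [Fin.sum_univ_two, ← hc₀, ← hc₁, Int.cast_smul_eq_zsmul, Int.cast_smul_eq_zsmul] at h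
    simpa using (congrArg (fun z : Submodule.torsionBy ℤ (W⁄K).Point (n : ℕ) =>
      (z : (W⁄K).Point)) h).symm
  have hindep : ∀ c₀ c₁ : ℤ, c₀ • (b 0 : (W⁄K).Point) + c₁ • (b 1 : (W⁄K).Point) = 0 →
      (n : ℤ) ∣ c₀ ∧ (n : ℤ) ∣ c₁ := by
    intro c₀ c₁ h
    have h' : (c₀ : ZMod n) • b 0 + (c₁ : ZMod n) • b 1 = 0 := by
      rw [Int.cast_smul_eq_zsmul, Int.cast_smul_eq_zsmul]
      exact Subtype.ext (by simpa using h)
    have := Fintype.linearIndependent_iff.1 b.linearIndependent ![(c₀ : ZMod n), (c₁ : ZMod n)]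
      (by simpa [Fin.sum_univ_two] using h')
    exact ⟨(ZMod.intCast_zmod_eq_zero_iff_dvd _ _).1 (this 0),
      (ZMod.intCast_zmod_eq_zero_iff_dvd _ _).1 (this 1)⟩
  have hkilled : ∀ i, (n : ℤ) • (b i : (W⁄K).Point) = 0 := fun i =>
    (Submodule.mem_torsionBy_iff _ _).1 (b i).2
  -- level `n * n`
  have hspan : ∀ x : (W⁄K).Point, (n : ℤ) • (n : ℤ) • x = 0 →
      ∃ c₀ c₁ : ℤ, x = c₀ • B 0 + c₁ • B 1 := by
    intro x hx
    obtain ⟨c₀, c₁, hc⟩ := hcomb ⟨(n : ℤ) • x, (Submodule.mem_torsionBy_iff _ _).2 hx⟩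
    obtain ⟨d₀, d₁, hd⟩ := hcomb ⟨x - (c₀ • B 0 + c₁ • B 1),
      (Submodule.mem_torsionBy_iff _ _).2 (by
        rw [smul_sub, smul_add, smul_comm _ c₀, smul_comm _ c₁, hB, hB, ← hc, sub_self])⟩
    refine ⟨c₀ + n * d₀, c₁ + n * d₁, ?_⟩
    rw [add_smul, add_smul, mul_comm _ d₀, mul_comm _ d₁, mul_smul, mul_smul, hB, hB]
    simp only at hd
    rw [sub_eq_iff_eq_add] at hd
    rw [hd]
    abel
  have hindep2 : ∀ c₀ c₁ : ℤ, c₀ • B 0 + c₁ • B 1 = 0 →
      (n : ℤ) * n ∣ c₀ ∧ (n : ℤ) * n ∣ c₁ := by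
    intro c₀ c₁ h
    have h1 := congrArg (fun z => (n : ℤ) • z) h
    simp only [smul_add, smul_zero, smul_comm (n : ℤ) c₀, smul_comm (n : ℤ) c₁, hB] at h1
    obtain ⟨⟨e₀, rfl⟩, ⟨e₁, rfl⟩⟩ := hindep c₀ c₁ h1
    rw [mul_comm (n : ℤ) e₀, mul_comm (n : ℤ) e₁, mul_smul, mul_smul, hB, hB] at h
    obtain ⟨h0, h1⟩ := hindep e₀ e₁ h
    exact ⟨mul_dvd_mul_left _ h0, mul_dvd_mul_left _ h1⟩
  have hlin : ∀ (z : ℤ) (P : (W⁄K).Point), σ • (z • P) = z • (σ • P) :=
    fun z P => Point.algEquiv_smul_zsmul σ z P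
  have hσB : ∀ i, (n : ℤ) • (n : ℤ) • (σ • B i) = 0 := fun i => by
    rw [← hlin, ← hlin, hB, hkilled, smul_zero]
  obtain ⟨m00, m10, hm0⟩ := hspan _ (hσB 0)
  obtain ⟨m01, m11, hm1⟩ := hspan _ (hσB 1)
  set a := W.traceOfFrobenius with ha
  set q : ℤ := (Nat.card k : ℤ) with hq
  have hCH : ∀ (P : (W⁄K).Point) (x y : ℤ), σ • P = x • B 0 + y • B 1 →
      σ • σ • P - a • (σ • P) + q • P = (x * m00 + y * m01 - a * x) • B 0
        + (x * m10 + y * m11 - a * y) • B 1 + q • P := by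
    intro P x y h
    rw [h, smul_add σ, hlin, hlin, hm0, hm1]
    module
  have h0 : (m00 * m00 + m10 * m01 - a * m00 + q) • B 0
      + (m00 * m10 + m10 * m11 - a * m10) • B 1 = 0 := by
    have h := frobenius_sq_sub_trace_add W σ hσ (B 0)
    rw [← ha, ← hq, hCH _ _ _ hm0] at h
    rw [← h]
    module
  have h1 : (m01 * m00 + m11 * m01 - a * m01) • B 0
      + (m01 * m10 + m11 * m11 - a * m11 + q) • B 1 = 0 := by
    have h := frobenius_sq_sub_trace_add W σ hσ (B 1)
    rw [← ha, ← hq, hCH _ _ _ hm1] at h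
    rw [← h]
    module
  obtain ⟨e00, e10⟩ := hindep2 _ _ h0
  obtain ⟨e01, e11⟩ := hindep2 _ _ h1
  set t := m00 + m11 with ht
  set D := m00 * m11 - m01 * m10 with hD
  -- the two key congruences
  have key : (n : ℤ) ∣ (t - a) ∧ (n : ℤ) ∣ (q - D) := by
    have f00 : (n : ℤ) * n ∣ (t - a) * m00 + (q - D) := by
      exact (e00).trans (dvd_of_eq (by rw [ht, hD]; ring))
    have f11 : (n : ℤ) * n ∣ (t - a) * m11 + (q - D) := by
      exact (e11).trans (dvd_of_eq (by rw [ht, hD]; ring))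
    have f10 : (n : ℤ) * n ∣ (t - a) * m10 := by
      exact (e10).trans (dvd_of_eq (by rw [ht]; ring))
    have f01 : (n : ℤ) * n ∣ (t - a) * m01 := by
      exact (e01).trans (dvd_of_eq (by rw [ht]; ring))
    by_cases hta : (n : ℤ) ∣ t - a
    · exact ⟨hta, (dvd_add_right (hta.mul_right _)).1 ((dvd_mul_right _ _).trans f00)⟩
    exfalso
    have d10 : (n : ℤ) ∣ m10 := by
      by_contra hc
      exact hta (dvd_of_sq_dvd_mul hp m hn f10 hc)
    have d01 : (n : ℤ) ∣ m01 := by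
      by_contra hc
      exact hta (dvd_of_sq_dvd_mul hp m hn f01 hc)
    have dd : (n : ℤ) ∣ m00 - m11 := by
      by_contra hc
      have : (n : ℤ) * n ∣ (t - a) * (m00 - m11) := by
        exact (dvd_sub f00 f11).trans (dvd_of_eq (by ring))
      exact hta (dvd_of_sq_dvd_mul hp m hn this hc)
    -- scalar on `E[n]`: the degree of `φ - c`
    have hdeg : ∀ i : ℤ, (n : ℤ) * n ∣
        (m00 + n * i) ^ 2 - a * (m00 + n * i) + q := by
      intro i
      have hscal : ∀ T : (W⁄K).Point, n • T = 0 →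
          (frobEndo W K).actC (C 1 * X + C (-(m00 + n * i))) T = 0 := by
        intro T hT
        rw [actC_apply W σ hσ, one_smul]
        obtain ⟨c₀, c₁, hc⟩ := hcomb ⟨T, (Submodule.mem_torsionBy_iff _ _).2
          (by rw [natCast_zsmul]; exact hT)⟩
        simp only at hc
        obtain ⟨u10, hu10⟩ := d10
        obtain ⟨u01, hu01⟩ := d01
        obtain ⟨udd, hudd⟩ := dd
        have hb0 : σ • (b 0 : (W⁄K).Point) = m00 • (b 0 : (W⁄K).Point) := by
          rw [← hB 0, hlin, hm0, smul_add, smul_comm _ m00, smul_comm _ m10, hB, hB, hu10,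
            mul_comm, mul_smul, hkilled, smul_zero, add_zero]
        have hb1 : σ • (b 1 : (W⁄K).Point) = m00 • (b 1 : (W⁄K).Point) := by
          rw [← hB 1, hlin, hm1, smul_add, smul_comm _ m01, smul_comm _ m11, hB, hB, hu01,
            mul_comm, mul_smul, hkilled, smul_zero, zero_add,
            show m00 = m11 + udd * n by linear_combination hudd, add_smul, mul_smul, hkilled,
            smul_zero, add_zero]
        rw [hc, smul_add σ, hlin, hlin, hb0, hb1]
        have : ((n : ℤ) * i) • (c₀ • (b 0 : (W⁄K).Point) + c₁ • (b 1 : (W⁄K).Point)) = 0 := by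
          rw [← hc, mul_comm, mul_smul, natCast_zsmul, hT, smul_zero]
        rw [neg_smul, add_smul, this, add_zero, smul_add]
        module
      haveI := EC.finite_torsionBy (W := W⁄K) hnK
      let G : AddSubgroup (W⁄K).Point :=
        (Submodule.torsionBy ℤ (W⁄K).Point ((n * n : ℕ) : ℤ)).toAddSubgroup
      haveI : Finite G := ‹Finite (Submodule.torsionBy ℤ (W⁄K).Point ((n * n : ℕ) : ℤ))›
      have h := (frobEndo W K).pow_dvd_deg hp m _ (by rw [← hn]; exact hscal) G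
        (fun T => by
          rw [← hn]
          show T ∈ Submodule.torsionBy ℤ (W⁄K).Point ((n * n : ℕ) : ℤ) ↔ _
          rw [Submodule.mem_torsionBy_iff, natCast_zsmul])
        (by rw [← hn]; exact EC.card_torsionBy (W := W⁄K) hnK)
      rw [← hn] at h
      have h' := Int.natCast_dvd_natCast.2 h
      rw [deg_act_linear, Nat.cast_mul] at h'
      exact h'
    have i1 := hdeg 0
    have i2 := hdeg 1
    simp only [mul_zero, add_zero] at i1
    have h3 : (n : ℤ) * n ∣ (n : ℤ) * (2 * m00 - a + n) := by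
      exact (dvd_sub i2 i1).trans (dvd_of_eq (by ring))
    have h4 : (n : ℤ) ∣ 2 * m00 - a + n :=
      (mul_dvd_mul_iff_left (Nat.cast_ne_zero.2 (NeZero.ne n))).1 h3
    apply hta
    have h5 : (n : ℤ) ∣ 2 * m00 - a := by simpa using dvd_sub h4 (dvd_refl (n : ℤ))
    exact (dvd_sub h5 dd).trans (dvd_of_eq (by rw [ht]; ring))
  -- the matrix in the basis `b`
  have hb : ∀ (j : Fin 2) (c₀ c₁ : ℤ), σ • B j = c₀ • B 0 + c₁ • B 1 →
      Point.galoisRepModuleEnd k W n σ (b j) = (c₀ : ZMod n) • b 0 + (c₁ : ZMod n) • b 1 := by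
    intro j c₀ c₁ h
    rw [Int.cast_smul_eq_zsmul, Int.cast_smul_eq_zsmul]
    refine Subtype.ext ?_
    show σ • (b j : (W⁄K).Point) =
      ((c₀ • b 0 + c₁ • b 1 : Submodule.torsionBy ℤ (W⁄K).Point (n : ℕ)) : (W⁄K).Point)
    rw [← hB j, hlin, h, smul_add, smul_comm _ c₀, smul_comm _ c₁, hB, hB]
    simp
  have hM : LinearMap.toMatrix b b (Point.galoisRepModuleEnd k W n σ) =
      !![(m00 : ZMod n), (m01 : ZMod n); (m10 : ZMod n), (m11 : ZMod n)] := by
    ext i j
    rw [LinearMap.toMatrix_apply]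
    fin_cases j
    · rw [show b ((fun i => i) ⟨0, by omega⟩) = b 0 from rfl, hb 0 _ _ hm0]
      fin_cases i <;> simp
    · rw [show b ((fun i => i) ⟨1, by omega⟩) = b 1 from rfl, hb 1 _ _ hm1]
      fin_cases i <;> simp
  rw [hM, Matrix.trace_fin_two_of, Matrix.det_fin_two_of]
  obtain ⟨k1, k2⟩ := key
  constructor
  · have := (ZMod.intCast_zmod_eq_zero_iff_dvd _ _).2 k1
    rw [ht] at this
    push_cast at this
    linear_combination this
  · have := (ZMod.intCast_zmod_eq_zero_iff_dvd _ _).2 k2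
    rw [hD, hq] at this
    push_cast at this
    linear_combination -this

/-- Trace and determinant of Frobenius on `E[p^m]` in any basis. -/
theorem frobenius_matrix_trace_det {p : ℕ} (hp : p.Prime) (hpk : (p : k) ≠ 0) (m : ℕ)
    (σ : K ≃ₐ[k] K) (hσ : ∀ x : K, σ x = x ^ Nat.card k)
    (b : Module.Basis (Fin 2) (ZMod (p ^ m))
      (Submodule.torsionBy ℤ (W⁄K).Point (p ^ m : ℕ))) :
    (LinearMap.toMatrix b b (Point.galoisRepModuleEnd k W (p ^ m) σ)).trace
        = (W.traceOfFrobenius : ZMod (p ^ m)) ∧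
      (LinearMap.toMatrix b b (Point.galoisRepModuleEnd k W (p ^ m) σ)).det
        = (Nat.card k : ZMod (p ^ m)) := by
  exact frobenius_matrix_aux W hp hpk m _ rfl σ hσ b

/-- The characteristic polynomial of Frobenius on `E[p]` is `X² - a X + q`. -/
theorem frobenius_charpoly {p : ℕ} [Fact p.Prime] (hpk : (p : k) ≠ 0)
    [Module.Finite (ZMod p) (Submodule.torsionBy ℤ (W⁄K).Point (p : ℕ))]
    (σ : K ≃ₐ[k] K) (hσ : ∀ x : K, σ x = x ^ Nat.card k) :
    LinearMap.charpoly (Point.galoisRepModuleEnd k W p σ)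
      = X ^ 2 - C (W.traceOfFrobenius : ZMod p) * X + C (Nat.card k : ZMod p) := by
  classical
  have hp : p.Prime := Fact.out
  have hpK : ((p : ℕ) : K) ≠ 0 := by
    rw [← map_natCast (algebraMap k K) p]
    exact (_root_.map_ne_zero _).2 hpk
  obtain ⟨e⟩ := EC.nonempty_torsionBy_linearEquiv (W := W) (K := K) hpK
  let b : Module.Basis (Fin 2) (ZMod p) (Submodule.torsionBy ℤ (W⁄K).Point (p : ℕ)) :=
    Module.Basis.ofEquivFun e
  obtain ⟨h1, h2⟩ := frobenius_matrix_aux W hp hpk 1 p (pow_one p).symm σ hσ b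
  rw [← LinearMap.charpoly_toMatrix _ b, Matrix.charpoly_fin_two, h1, h2]

end Fermat.Agent.Weil
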