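/-
The determinant of the Galois representation on the torsion of an elliptic curve over `ℚ`
is the cyclotomic character.
-/
import Fermat.Prelude.Def_FreyPackage_DetCyclotomic
import Fermat.Prelude.Def_EllipticCurve_FrobeniusTrace
import Fermat.Agent.ECRed.Frobenius
import Fermat.Agent.EC.Torsion
import Fermat.Agent.Density.Main
import Fermat.Agent.Datum.Roots
import Fermat.Agent.Switch.Model
import Fermat.Agent.AtP.HasTorsion

set_option autoImplicit false

open WeierstrassCurve.Affine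
open scoped WeierstrassCurve.Affine

namespace Fermat.Agent.Weil

local notation "ℚbar" => AlgebraicClosure ℚ

/-- There are `n` roots of unity of order dividing `n` in `ℚbar`. -/
theorem card_rootsOfUnity_Qbar (n : ℕ) [NeZero n] : Nat.card (rootsOfUnity n ℚbar) = n :=
  IsAlgClosed.card_rootsOfUnity_eq ℚbar n

/-- An equivariant isomorphism of groups of points gives equal determinants on torsion. -/
theorem det_galoisRepModuleEnd_congr {R R' : Type*} [CommRing R] [CommRing R'] [Algebra R ℚ]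
    [Algebra R' ℚ] [Algebra R ℚbar] [Algebra R' ℚbar]
    [@IsScalarTower R ℚ ℚbar Algebra.toSMul Algebra.toSMul Algebra.toSMul]
    [@IsScalarTower R' ℚ ℚbar Algebra.toSMul Algebra.toSMul Algebra.toSMul]
    {W : WeierstrassCurve.Affine R} {W' : WeierstrassCurve.Affine R'}
    (e : (W⁄ℚbar).Point ≃+ (W'⁄ℚbar).Point)
    (he : ∀ (σ : ℚbar ≃ₐ[ℚ] ℚbar) P, e (σ • P) = σ • e P) (n : ℕ) (σ : ℚbar ≃ₐ[ℚ] ℚbar) :
    LinearMap.det (Point.galoisRepModuleEnd ℚ W' n σ) =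
      LinearMap.det (Point.galoisRepModuleEnd ℚ W n σ) := by
  let et : Submodule.torsionBy ℤ (W⁄ℚbar).Point n ≃+
      Submodule.torsionBy ℤ (W'⁄ℚbar).Point n :=
    { toFun := fun x => ⟨e x.1, by
        rw [Submodule.mem_torsionBy_iff, ← map_zsmul,
          (Submodule.mem_torsionBy_iff (n : ℤ) x.1).1 x.2, map_zero]⟩
      invFun := fun y => ⟨e.symm y.1, by
        rw [Submodule.mem_torsionBy_iff, ← map_zsmul,
          (Submodule.mem_torsionBy_iff (n : ℤ) y.1).1 y.2, map_zero]⟩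
      left_inv := fun x => Subtype.ext (e.symm_apply_apply _)
      right_inv := fun y => Subtype.ext (e.apply_symm_apply _)
      map_add' := fun x y => Subtype.ext (map_add e _ _) }
  let el : Submodule.torsionBy ℤ (W⁄ℚbar).Point n ≃ₗ[ZMod n]
      Submodule.torsionBy ℤ (W'⁄ℚbar).Point n :=
    LinearEquiv.ofBijective (AddMonoidHom.toZModLinearMap n et.toAddMonoidHom) et.bijective
  have hc : Point.galoisRepModuleEnd ℚ W' n σ =
      el.conj (Point.galoisRepModuleEnd ℚ W n σ) := by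
    refine LinearMap.ext fun y => ?_
    obtain ⟨x, rfl⟩ := el.surjective y
    rw [LinearEquiv.conj_apply_apply, LinearEquiv.symm_apply_apply,
      Point.galoisRepModuleEnd_apply, Point.galoisRepModuleEnd_apply]
    exact Subtype.ext (he σ x.1).symm
  rw [hc, LinearEquiv.conj_apply, LinearMap.comp_assoc, LinearMap.det_conj]

/-- For a model over `ℤ`: both characters agree on Frobenius elements at good primes, hence
everywhere. -/
theorem det_galoisRepModuleEnd_model (W : WeierstrassCurve ℤ) (hW : W.Δ ≠ 0) {p : ℕ}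
    (hp : p.Prime) (m : ℕ) (σ : ℚbar ≃ₐ[ℚ] ℚbar) :
    haveI : NeZero (p ^ m) := ⟨pow_ne_zero m hp.ne_zero⟩
    LinearMap.det (Point.galoisRepModuleEnd ℚ (W.map (Int.castRingHom ℚ)) (p ^ m) σ)
      = Datum.chiMod (p ^ m) σ := by
  have hn0 : p ^ m ≠ 0 := pow_ne_zero m hp.ne_zero
  haveI : NeZero (p ^ m) := ⟨hn0⟩
  haveI : (W.map (Int.castRingHom ℚ)).IsElliptic := by
    rw [WeierstrassCurve.isElliptic_iff, WeierstrassCurve.map_Δ, isUnit_iff_ne_zero, eq_intCast,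
      Int.cast_ne_zero]
    exact hW
  haveI : ((W.map (Int.castRingHom ℚ))⁄ℚbar).IsElliptic := inferInstance
  let δ : (ℚbar ≃ₐ[ℚ] ℚbar) →* (ZMod (p ^ m))ˣ :=
    MonoidHom.toHomUnits (LinearMap.det.comp
      (Point.galoisRepModuleEnd (K := ℚbar) ℚ (W.map (Int.castRingHom ℚ)) (p ^ m)))
  let χ : (ℚbar ≃ₐ[ℚ] ℚbar) →* (ZMod (p ^ m))ˣ :=
    MonoidHom.toHomUnits (Datum.chiMod (p ^ m))
  obtain ⟨L₁, hL₁, hfix⟩ := EC.exists_finiteDimensional_fixing_torsionBy
    (W := W.map (Int.castRingHom ℚ)) hn0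
  obtain ⟨L₂, hL₂, hχ⟩ := Datum.exists_level_chiMod (p ^ m)
  have key : δ * χ⁻¹ = 1 := by
    refine Density.eq_one_of_frobenius _ (L₁ ⊔ L₂) (fun τ hτ => ?_)
      (insert p W.Δ.natAbs.divisors) fun ℓ hℓ hS A hA τ hτ => ?_
    · have h1 : δ τ = 1 := Units.ext (by
        show LinearMap.det (Point.galoisRepModuleEnd ℚ (W.map (Int.castRingHom ℚ)) (p ^ m) τ) = 1
        rw [show Point.galoisRepModuleEnd ℚ (W.map (Int.castRingHom ℚ)) (p ^ m) τ = LinearMap.id
          from LinearMap.ext fun P =>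
            hfix τ (fun x hx => hτ x ((le_sup_left : L₁ ≤ L₁ ⊔ L₂) hx)) P, LinearMap.det_id])
      have h2 : χ τ = 1 :=
        Units.ext (hχ τ fun x hx => hτ x ((le_sup_right : L₂ ≤ L₁ ⊔ L₂) hx))
      rw [MonoidHom.mul_apply, MonoidHom.inv_apply, h1, h2, inv_one, mul_one]
    · simp only [Finset.mem_insert, not_or, Nat.mem_divisors, not_and] at hS
      have hg : W.IsGoodPrimeFor ℓ := fun h => hS.2 (Int.natCast_dvd.1 h) (Int.natAbs_ne_zero.2 hW)
      have hco : ℓ.Coprime (p ^ m) :=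
        Nat.Coprime.pow_right _ ((Nat.coprime_primes hℓ hp).2 hS.1)
      rw [MonoidHom.mul_apply, MonoidHom.inv_apply, mul_inv_eq_one]
      refine Units.ext ?_
      show LinearMap.det (Point.galoisRepModuleEnd ℚ (W.map (Int.castRingHom ℚ)) (p ^ m) τ) =
        Datum.chiMod (p ^ m) τ
      rw [ECRed.det_frobenius hℓ hA hg hτ hp (Ne.symm hS.1),
        Datum.chiMod_frobenius (p ^ m) hA hτ hco]
  have h := DFunLike.congr_fun key σ
  rw [MonoidHom.mul_apply, MonoidHom.inv_apply, MonoidHom.one_apply, mul_inv_eq_one] at h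
  exact congrArg Units.val h

/-- Every elliptic curve over `ℚ` has an integral short model with isomorphic points. -/
theorem exists_integral_model (W : WeierstrassCurve ℚ) [W.IsElliptic] :
    ∃ W₀ : WeierstrassCurve ℤ, W₀.Δ ≠ 0 ∧
      ∃ e : (W⁄ℚbar).Point ≃+ ((W₀.map (Int.castRingHom ℚ))⁄ℚbar).Point,
        ∀ (σ : ℚbar ≃ₐ[ℚ] ℚbar) P, e (σ • P) = σ • e P := by
  obtain ⟨μ, hμ, A, B, hA, hB⟩ : ∃ μ : ℚ, μ ≠ 0 ∧ ∃ A B : ℤ,
      (A : ℚ) = -27 * μ ^ 4 * W.c₄ ∧ (B : ℚ) = -54 * μ ^ 6 * W.c₆ := by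
    refine ⟨(W.c₄.den : ℚ) * W.c₆.den, by positivity,
      -27 * ((W.c₄.den : ℤ) ^ 3 * (W.c₆.den : ℤ) ^ 4 * W.c₄.num),
      -54 * ((W.c₄.den : ℤ) ^ 6 * (W.c₆.den : ℤ) ^ 5 * W.c₆.num), ?_, ?_⟩
    · push_cast
      rw [← Rat.mul_den_eq_num W.c₄]
      ring
    · push_cast
      rw [← Rat.mul_den_eq_num W.c₆]
      ring
  let W₀ : WeierstrassCurve ℤ := ⟨0, 0, 0, A, B⟩
  have hM : Switch.IsModel W.toAffine (W₀.map (Int.castRingHom ℚ)).toAffine μ :=
    ⟨map_zero _, map_zero _, map_zero _, hA, hB⟩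
  have hΔ0 : W.Δ ≠ 0 := W.isUnit_Δ.ne_zero
  have hne : (W₀.map (Int.castRingHom ℚ)).Δ ≠ 0 := by
    rw [hM.Δ_eq]
    exact mul_ne_zero (mul_ne_zero (by norm_num) (pow_ne_zero _ hμ)) hΔ0
  refine ⟨W₀, fun h => hne (by rw [WeierstrassCurve.map_Δ, h, map_zero]), ?_⟩
  have hμ' : algebraMap ℚ ℚbar μ ≠ 0 := (map_ne_zero _).2 hμ
  have hΔ' : (W⁄ℚbar).Δ ≠ 0 := by
    rw [show (W⁄ℚbar).Δ = algebraMap ℚ ℚbar W.Δ from WeierstrassCurve.map_Δ ..]
    exact (map_ne_zero _).2 hΔ0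
  exact ⟨hM.baseChange.pointEquiv hμ' hΔ', fun σ P => hM.pointEquiv_smul hμ' hΔ' σ P⟩

/-- `det = cyclotomic character` on `E[p ^ m]`. -/
theorem det_galoisRepModuleEnd_pow (W : WeierstrassCurve ℚ) [W.IsElliptic] {p : ℕ}
    (hp : p.Prime) (m : ℕ) (σ : ℚbar ≃ₐ[ℚ] ℚbar) :
    haveI : NeZero (p ^ m) := ⟨pow_ne_zero m hp.ne_zero⟩
    LinearMap.det (Point.galoisRepModuleEnd ℚ W (p ^ m) σ) = Datum.chiMod (p ^ m) σ := by
  obtain ⟨W₀, hW₀, e, he⟩ := exists_integral_model W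
  rw [← det_galoisRepModuleEnd_congr e he (p ^ m) σ]
  exact det_galoisRepModuleEnd_model W₀ hW₀ hp m σ

/-- `det = cyclotomic character` on `E[p]`, elliptic curve over `ℚ`. -/
theorem det_galoisRepModuleEnd (W : WeierstrassCurve ℚ) [W.IsElliptic] (p : ℕ) [Fact p.Prime]
    (hn : Nat.card (rootsOfUnity p ℚbar) = p) (σ : ℚbar ≃ₐ[ℚ] ℚbar) :
    LinearMap.det (Point.galoisRepModuleEnd ℚ W p σ)
      = ((modularCyclotomicCharacter ℚbar hn (σ : ℚbar ≃+* ℚbar) : (ZMod p)ˣ) : ZMod p) := by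
  have h := det_galoisRepModuleEnd_pow W (Fact.out : p.Prime) 1 σ
  have e : p ^ 1 = p := pow_one p
  revert h
  generalize (⟨pow_ne_zero 1 (Fact.out : p.Prime).ne_zero⟩ : NeZero (p ^ 1)) = i
  revert i
  rw [e]
  exact fun i h => h

/-- `det = cyclotomic character` on `E[p]`, elliptic curve with a model over `ℤ`. -/
theorem det_galoisRepModuleEnd_int (W : WeierstrassCurve ℤ) (hW : W.Δ ≠ 0) (p : ℕ) [Fact p.Prime]
    (hn : Nat.card (rootsOfUnity p ℚbar) = p) (σ : ℚbar ≃ₐ[ℚ] ℚbar) :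
    LinearMap.det (Point.galoisRepModuleEnd ℚ W p σ)
      = ((modularCyclotomicCharacter ℚbar hn (σ : ℚbar ≃+* ℚbar) : (ZMod p)ˣ) : ZMod p) := by
  haveI : (W.map (Int.castRingHom ℚ)).IsElliptic := by
    rw [WeierstrassCurve.isElliptic_iff, WeierstrassCurve.map_Δ, isUnit_iff_ne_zero, eq_intCast,
      Int.cast_ne_zero]
    exact hW
  have heq : ((W.map (Int.castRingHom ℚ))⁄ℚbar) = (W⁄ℚbar) := by
    show (W.map (Int.castRingHom ℚ)).map (algebraMap ℚ ℚbar) = W.map (algebraMap ℤ ℚbar)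
    rw [WeierstrassCurve.map_map]
    exact congrArg W.map (RingHom.ext_int _ _)
  rw [det_galoisRepModuleEnd_congr (W' := W.toAffine) (AtP.pointEquivOfEq heq) ?_ p σ]
  · exact det_galoisRepModuleEnd _ p hn σ
  intro σ P
  rcases P with _ | ⟨x, y, h⟩
  · exact (AtP.pointEquivOfEq_zero heq).trans rfl
  · show AtP.pointEquivOfEq heq (σ • Point.some x y h) = σ • AtP.pointEquivOfEq heq (Point.some x y h)
    rw [AtP.pointEquivOfEq_some]
    exact AtP.pointEquivOfEq_some heq _ _ _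

/-- The statement in the Prelude's formulation. -/
theorem galoisRepDetEqCyclotomic (W : WeierstrassCurve ℚ) [W.IsElliptic] (p : ℕ) [Fact p.Prime]
    (hn : Nat.card (rootsOfUnity p ℚbar) = p) :
    haveI : NeZero p := ⟨(Fact.out : p.Prime).ne_zero⟩
    Point.GaloisRepDetEqCyclotomic ℚ W p hn := by
  intro σ
  refine Units.ext ?_
  rw [Point.galoisRepDet_apply, LinearEquiv.coe_det]
  exact det_galoisRepModuleEnd W p hn σ

/-- `det = cyclotomic character` on `E[p^m]`, in any basis. -/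
theorem det_toMatrix_galoisRepModuleEnd (W : WeierstrassCurve ℚ) [W.IsElliptic] {p : ℕ}
    [Fact p.Prime] (m : ℕ) (hn : Nat.card (rootsOfUnity (p ^ m) ℚbar) = p ^ m)
    (b : Module.Basis (Fin 2) (ZMod (p ^ m))
      (Submodule.torsionBy ℤ (W⁄ℚbar).Point (p ^ m : ℕ)))
    (σ : ℚbar ≃ₐ[ℚ] ℚbar) :
    haveI : NeZero (p ^ m) := ⟨pow_ne_zero m (Fact.out : p.Prime).ne_zero⟩
    (LinearMap.toMatrix b b (Point.galoisRepModuleEnd ℚ W (p ^ m) σ)).det
      = ((modularCyclotomicCharacter ℚbar hn (σ : ℚbar ≃+* ℚbar) : (ZMod (p ^ m))ˣ) :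
          ZMod (p ^ m)) := by
  rw [LinearMap.det_toMatrix]
  exact det_galoisRepModuleEnd_pow W (Fact.out : p.Prime) m σ

end Fermat.Agent.Weil
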